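/-
Program C (S55), package C4, leaf (CMP) `H26.LocalInvCompStatement`: the abstract cochain core.
Prover: helper3.  Mathlib only.

`exists_cobound_of_shapiro`: "corestriction ∘ restriction" at the level of homogeneous cochains.
`G` a group, `H` a subgroup of finite index, `N ≤ H` a normal subgroup of `G` acting trivially on
the `G`-module `A`.  Let `F : G³ → A` be an `H`-equivariant homogeneous 2-cocycle which is
constant modulo `N` and whose restriction to `H³` is the coboundary of an `H`-equivariant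
`bt : H² → A` (constant modulo `N`).  Then the "norm" of `F`,
`(g₁, g₂) ↦ ∑_{x ∈ G/H} x · F (x⁻¹, x⁻¹ g₁, x⁻¹ g₁ g₂)`,
is the inhomogeneous coboundary of a 1-cochain `β : G → A` which is constant modulo `N`.

Proof: a retraction `t : G → H` with `t (h g) = h t g`, the prism identity
`F = F ∘ t³ + d (P F)`, and the norm `∑_{x ∈ G/H} x · (-)(x⁻¹ ·)` from `H`-equivariant to
`G`-equivariant homogeneous cochains.
-/
import Mathlib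

set_option autoImplicit false

namespace Fermat.Agent.S55.H3

section Prism

variable {G : Type*} {A : Type*} [AddCommGroup A]

/-- The prism identity for a homogeneous 2-cocycle and an arbitrary self-map `t`. -/
theorem prism_identity (F : G → G → G → A) (t : G → G)
    (hFc : ∀ y₀ y₁ y₂ y₃, F y₁ y₂ y₃ - F y₀ y₂ y₃ + F y₀ y₁ y₃ - F y₀ y₁ y₂ = 0)
    (y₀ y₁ y₂ : G) :
    F y₀ y₁ y₂ = F (t y₀) (t y₁) (t y₂)
      + ((F (t y₁) y₁ y₂ - F (t y₁) (t y₂) y₂) - (F (t y₀) y₀ y₂ - F (t y₀) (t y₂) y₂)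
        + (F (t y₀) y₀ y₁ - F (t y₀) (t y₁) y₁)) := by
  have a := hFc (t y₀) y₀ y₁ y₂
  have b := hFc (t y₀) (t y₁) y₁ y₂
  have c := hFc (t y₀) (t y₁) (t y₂) y₂
  have key : F y₀ y₁ y₂ - (F (t y₀) (t y₁) (t y₂)
      + ((F (t y₁) y₁ y₂ - F (t y₁) (t y₂) y₂) - (F (t y₀) y₀ y₂ - F (t y₀) (t y₂) y₂)
        + (F (t y₀) y₀ y₁ - F (t y₀) (t y₁) y₁)))
      = (F y₀ y₁ y₂ - F (t y₀) y₁ y₂ + F (t y₀) y₀ y₂ - F (t y₀) y₀ y₁)
        - (F (t y₁) y₁ y₂ - F (t y₀) y₁ y₂ + F (t y₀) (t y₁) y₂ - F (t y₀) (t y₁) y₁)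
        + (F (t y₁) (t y₂) y₂ - F (t y₀) (t y₂) y₂ + F (t y₀) (t y₁) y₂
          - F (t y₀) (t y₁) (t y₂)) := by
    abel
  rw [a, b, c, sub_zero, add_zero] at key
  exact sub_eq_zero.1 key

end Prism

section Core

variable {G : Type*} [Group G] {A : Type*} [AddCommGroup A]

/-- **Shapiro/corestriction core.**  See the file header. -/
theorem exists_cobound_of_shapiro (H N : Subgroup G) [Fintype (G ⧸ H)] (hN : N.Normal)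
    (hNH : N ≤ H) (ρ : G → A → A)
    (hρ_mul : ∀ g g' a, ρ (g * g') a = ρ g (ρ g' a)) (hρ_one : ∀ a, ρ 1 a = a)
    (hρ_add : ∀ g a a', ρ g (a + a') = ρ g a + ρ g a')
    (F : G → G → G → A)
    (hFH : ∀ h ∈ H, ∀ y₀ y₁ y₂, F (h * y₀) (h * y₁) (h * y₂) = ρ h (F y₀ y₁ y₂))
    (hFN : ∀ y₀ y₁ y₂, ∀ n₀ ∈ N, ∀ n₁ ∈ N, ∀ n₂ ∈ N,
      F (y₀ * n₀) (y₁ * n₁) (y₂ * n₂) = F y₀ y₁ y₂)
    (hFc : ∀ y₀ y₁ y₂ y₃, F y₁ y₂ y₃ - F y₀ y₂ y₃ + F y₀ y₁ y₃ - F y₀ y₁ y₂ = 0)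
    (bt : H → H → A)
    (hbH : ∀ h h₀ h₁ : H, bt (h * h₀) (h * h₁) = ρ h (bt h₀ h₁))
    (hbN : ∀ h₀ h₁ n₀ n₁ : H, (n₀ : G) ∈ N → (n₁ : G) ∈ N → bt (h₀ * n₀) (h₁ * n₁) = bt h₀ h₁)
    (hres : ∀ h₀ h₁ h₂ : H, F h₀ h₁ h₂ = bt h₁ h₂ - bt h₀ h₂ + bt h₀ h₁) :
    ∃ β : G → A, (∀ g, ∀ n ∈ N, β (g * n) = β g) ∧
      ∀ g₁ g₂ : G,
        ∑ x : G ⧸ H, ρ (Quotient.out x) (F (Quotient.out x)⁻¹ ((Quotient.out x)⁻¹ * g₁)
          ((Quotient.out x)⁻¹ * g₁ * g₂)) = ρ g₁ (β g₂) - β (g₁ * g₂) + β g₁ := by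
  classical
  -- the action as additive maps
  let ρA : G → A →+ A := fun g => AddMonoidHom.mk' (ρ g) (hρ_add g)
  have hρA : ∀ g a, ρA g a = ρ g a := fun _ _ => rfl
  have hρ_sub : ∀ g a a', ρ g (a - a') = ρ g a - ρ g a' := fun g a a' => map_sub (ρA g) a a'
  have hρ_inv : ∀ g a, ρ g (ρ g⁻¹ a) = a := by
    intro g a
    rw [← hρ_mul, mul_inv_cancel, hρ_one]
  -- representatives of the right cosets `H g`
  let r : G → G := fun g => Quotient.out (Quotient.mk (QuotientGroup.rightRel H) g)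
  have hr : ∀ g, g * (r g)⁻¹ ∈ H := by
    intro g
    have := Quotient.mk_out (s := QuotientGroup.rightRel H) g
    exact QuotientGroup.rightRel_apply.1 this
  have hrH : ∀ h ∈ H, ∀ g, r (h * g) = r g := by
    intro h hh g
    have : Quotient.mk (QuotientGroup.rightRel H) (h * g)
        = Quotient.mk (QuotientGroup.rightRel H) g := by
      apply Quotient.sound
      show (QuotientGroup.rightRel H) (h * g) g
      rw [QuotientGroup.rightRel_apply]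
      have e : g * (h * g)⁻¹ = h⁻¹ := by group
      rw [e]
      exact H.inv_mem hh
    show Quotient.out (Quotient.mk (QuotientGroup.rightRel H) (h * g)) = _
    rw [this]
  have hrN : ∀ g, ∀ n ∈ N, r (g * n) = r g := by
    intro g n hn
    have : Quotient.mk (QuotientGroup.rightRel H) (g * n)
        = Quotient.mk (QuotientGroup.rightRel H) g := by
      apply Quotient.sound
      show (QuotientGroup.rightRel H) (g * n) g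
      rw [QuotientGroup.rightRel_apply]
      have e : g * (g * n)⁻¹ = g * n⁻¹ * g⁻¹ := by group
      rw [e]
      exact hNH (hN.conj_mem _ (N.inv_mem hn) _)
    show Quotient.out (Quotient.mk (QuotientGroup.rightRel H) (g * n)) = _
    rw [this]
  -- the retraction
  let t : G → H := fun g => ⟨g * (r g)⁻¹, hr g⟩
  have htH : ∀ (h : H) (g : G), t (h * g) = h * t g := by
    intro h g
    apply Subtype.ext
    show (h : G) * g * (r (h * g))⁻¹ = h * (g * (r g)⁻¹)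
    rw [hrH h h.2 g, mul_assoc]
  have htN : ∀ g, ∀ n ∈ N, ∃ n' : H, (n' : G) ∈ N ∧ t (g * n) = t g * n' := by
    intro g n hn
    refine ⟨⟨r g * n * (r g)⁻¹, hNH (hN.conj_mem _ hn _)⟩, hN.conj_mem _ hn _, ?_⟩
    apply Subtype.ext
    show g * n * (r (g * n))⁻¹ = g * (r g)⁻¹ * (r g * n * (r g)⁻¹)
    rw [hrN g n hn]
    group
  -- the `H`-equivariant primitive of `F`
  let B₀ : G → G → A := fun y₀ y₁ =>
    bt (t y₀) (t y₁) + (F (t y₀) y₀ y₁ - F (t y₀) (t y₁) y₁)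
  have hB₀d : ∀ y₀ y₁ y₂, F y₀ y₁ y₂ = B₀ y₁ y₂ - B₀ y₀ y₂ + B₀ y₀ y₁ := by
    intro y₀ y₁ y₂
    rw [prism_identity F (fun g => (t g : G)) hFc y₀ y₁ y₂, hres (t y₀) (t y₁) (t y₂)]
    show _ = (bt (t y₁) (t y₂) + (F (t y₁) y₁ y₂ - F (t y₁) (t y₂) y₂))
      - (bt (t y₀) (t y₂) + (F (t y₀) y₀ y₂ - F (t y₀) (t y₂) y₂))
      + (bt (t y₀) (t y₁) + (F (t y₀) y₀ y₁ - F (t y₀) (t y₁) y₁))
    abel
  have hB₀H : ∀ (h : H) (y₀ y₁ : G), B₀ (h * y₀) (h * y₁) = ρ h (B₀ y₀ y₁) := by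
    intro h y₀ y₁
    show bt (t (h * y₀)) (t (h * y₁)) + (F (t (h * y₀)) (h * y₀) (h * y₁)
      - F (t (h * y₀)) (t (h * y₁)) (h * y₁)) = ρ h (bt (t y₀) (t y₁)
        + (F (t y₀) y₀ y₁ - F (t y₀) (t y₁) y₁))
    rw [htH, htH, hbH, hρ_add, hρ_sub]
    show _ + (F ((h : G) * (t y₀ : G)) (h * y₀) (h * y₁)
      - F ((h : G) * (t y₀ : G)) ((h : G) * (t y₁ : G)) (h * y₁)) = _
    rw [hFH h h.2, hFH h h.2]
  have hB₀N : ∀ (y₀ y₁ : G), ∀ n₀ ∈ N, ∀ n₁ ∈ N, B₀ (y₀ * n₀) (y₁ * n₁) = B₀ y₀ y₁ := by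
    intro y₀ y₁ n₀ hn₀ n₁ hn₁
    obtain ⟨m₀, hm₀, e₀⟩ := htN y₀ n₀ hn₀
    obtain ⟨m₁, hm₁, e₁⟩ := htN y₁ n₁ hn₁
    show bt (t (y₀ * n₀)) (t (y₁ * n₁)) + (F (t (y₀ * n₀)) (y₀ * n₀) (y₁ * n₁)
      - F (t (y₀ * n₀)) (t (y₁ * n₁)) (y₁ * n₁)) = bt (t y₀) (t y₁)
        + (F (t y₀) y₀ y₁ - F (t y₀) (t y₁) y₁)
    rw [e₀, e₁, hbN _ _ _ _ hm₀ hm₁]
    show _ + (F ((t y₀ : G) * (m₀ : G)) (y₀ * n₀) (y₁ * n₁)
      - F ((t y₀ : G) * (m₀ : G)) ((t y₁ : G) * (m₁ : G)) (y₁ * n₁)) = _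
    rw [hFN _ _ _ _ hm₀ _ hn₀ _ hn₁, hFN _ _ _ _ hm₀ _ hm₁ _ hn₁]
  -- the norm of `B₀`
  let ψ : G → G → G → A := fun y₀ y₁ g => ρ g (B₀ (g⁻¹ * y₀) (g⁻¹ * y₁))
  have hψH : ∀ y₀ y₁ g g', g⁻¹ * g' ∈ H → ψ y₀ y₁ g = ψ y₀ y₁ g' := by
    intro y₀ y₁ g g' hgg
    show ρ g (B₀ (g⁻¹ * y₀) (g⁻¹ * y₁)) = ρ g' (B₀ (g'⁻¹ * y₀) (g'⁻¹ * y₁))
    have e0 : g⁻¹ * y₀ = (g⁻¹ * g') * (g'⁻¹ * y₀) := by group
    have e1 : g⁻¹ * y₁ = (g⁻¹ * g') * (g'⁻¹ * y₁) := by group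
    rw [e0, e1, hB₀H ⟨g⁻¹ * g', hgg⟩, ← hρ_mul, mul_inv_cancel_left]
  have hψG : ∀ γ y₀ y₁ g, ψ (γ * y₀) (γ * y₁) (γ * g) = ρ γ (ψ y₀ y₁ g) := by
    intro γ y₀ y₁ g
    show ρ (γ * g) (B₀ ((γ * g)⁻¹ * (γ * y₀)) ((γ * g)⁻¹ * (γ * y₁)))
      = ρ γ (ρ g (B₀ (g⁻¹ * y₀) (g⁻¹ * y₁)))
    have e0 : (γ * g)⁻¹ * (γ * y₀) = g⁻¹ * y₀ := by group
    have e1 : (γ * g)⁻¹ * (γ * y₁) = g⁻¹ * y₁ := by group
    rw [e0, e1, hρ_mul]
  let NB : G → G → A := fun y₀ y₁ => ∑ x : G ⧸ H, ψ y₀ y₁ (Quotient.out x)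
  have hNBG : ∀ γ y₀ y₁, NB (γ * y₀) (γ * y₁) = ρ γ (NB y₀ y₁) := by
    intro γ y₀ y₁
    show ∑ x : G ⧸ H, ψ (γ * y₀) (γ * y₁) (Quotient.out x)
      = ρ γ (∑ x : G ⧸ H, ψ y₀ y₁ (Quotient.out x))
    have e : ρ γ (∑ x : G ⧸ H, ψ y₀ y₁ (Quotient.out x))
        = ∑ x : G ⧸ H, ρ γ (ψ y₀ y₁ (Quotient.out x)) := map_sum (ρA γ) _ _
    rw [e, ← Equiv.sum_comp (MulAction.toPerm γ : Equiv.Perm (G ⧸ H))]
    refine Finset.sum_congr rfl (fun x _ => ?_)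
    rw [← hψG]
    apply hψH
    have h1 : ((Quotient.out ((MulAction.toPerm γ : Equiv.Perm (G ⧸ H)) x) : G) : G ⧸ H)
        = ((γ * Quotient.out x : G) : G ⧸ H) := by
      rw [QuotientGroup.out_eq']
      show γ • x = _
      conv_lhs => rw [← QuotientGroup.out_eq' x]
      rfl
    exact QuotientGroup.eq.1 h1
  refine ⟨fun g => NB 1 g, ?_, ?_⟩
  · intro g n hn
    show ∑ x : G ⧸ H, ψ 1 (g * n) (Quotient.out x) = ∑ x : G ⧸ H, ψ 1 g (Quotient.out x)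
    refine Finset.sum_congr rfl (fun x _ => ?_)
    show ρ _ (B₀ ((Quotient.out x)⁻¹ * 1) ((Quotient.out x)⁻¹ * (g * n)))
      = ρ _ (B₀ ((Quotient.out x)⁻¹ * 1) ((Quotient.out x)⁻¹ * g))
    have e := hB₀N ((Quotient.out x)⁻¹) ((Quotient.out x)⁻¹ * g) 1 N.one_mem n hn
    rw [mul_one, mul_assoc] at e
    rw [mul_one, e]
  · intro g₁ g₂
    have h1 : ρ g₁ (NB 1 g₂) = NB g₁ (g₁ * g₂) := by
      have := hNBG g₁ 1 g₂
      rw [mul_one] at this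
      exact this.symm
    rw [h1]
    show _ = ∑ x : G ⧸ H, ψ g₁ (g₁ * g₂) (Quotient.out x)
      - ∑ x : G ⧸ H, ψ 1 (g₁ * g₂) (Quotient.out x) + ∑ x : G ⧸ H, ψ 1 g₁ (Quotient.out x)
    rw [← Finset.sum_sub_distrib, ← Finset.sum_add_distrib]
    refine Finset.sum_congr rfl (fun x _ => ?_)
    show ρ _ (F _ _ _) = ρ _ (B₀ _ _) - ρ _ (B₀ _ _) + ρ _ (B₀ _ _)
    rw [hB₀d, hρ_add, hρ_sub, mul_one, mul_assoc]

end Core

end Fermat.Agent.S55.H3
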