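/-
Program C (S55), package C4, leaf (CMP): `H26.LocalInvCompStatement p q`
("`inv_{ℚ_q} ∘ cores = inv_E`"), from the C3 leaves `LeafInv`, `LeafInvInfl`, `LeafInvRes` and
the level dictionary `H26.LocalFieldLevelsStatement q`.
Prover: helper3.

Strategy (`G = Gal(Ω/ℚ_q)`, `H = Gal(Ω/E)`, `L` finite Galois over `ℚ_q` containing `L'` and
such that the level cocycle `z` is constant modulo `N = Gal(Ω/L)`; `Γ = Gal(L/ℚ_q)`):
* `c' := ζ ^ (aug z)` is a 2-cocycle of `Γ` in `Lˣ` corresponding to `aug_* x`, so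
  `inv (aug_* x) = inv_{L/ℚ_q} [c']` (`IsLocalInv`);
* choose `u ∈ H²(Γ, Lˣ)` with `res u = infl y` (`LeafInv`, `LeafInvRes`);
* `[c'] = [E : ℚ_q] • u`: the abstract cochain core `exists_cobound_of_shapiro` applied to the
  homogeneous cochain `F (y₀, y₁, y₂) = ζ ^ (coefficient of z (y₀⁻¹y₁, y₁⁻¹y₂) at y₀⁻¹H)
  - y₀ • ũ (y₀⁻¹y₁, y₁⁻¹y₂)` on `G³`;
* `LeafInvRes` and `LeafInvInfl` again.
-/
import Fermat.Agent.S55.H26.LocalInvPlan
import Fermat.Agent.S55.H66.LocalBridge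
import Fermat.Agent.S55.H41.Bridge2Core
import Fermat.Agent.S55.H93.GalTransport
import Fermat.Agent.S55.H3.ShapiroCore

set_option autoImplicit false

noncomputable section

namespace Fermat.Agent.S55.H3

open CategoryTheory groupCohomology IntermediateField
open Fermat.Agent.S55.H49 Fermat.Agent.S55.H26 Fermat.Agent.S55.H66 Fermat.Agent.S55.H41

/-! ### Units as elements of the Galois module -/

section UA

variable {q : ℕ} [Fact q.Prime]
variable {F : Type} [Field F] [Algebra F (PadicAlgCl q)]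
variable {L : IntermediateField F (PadicAlgCl q)}

/-- A unit of `L`, as an element of the Galois module `Lˣ`. -/
def uA (x : Lˣ) : Rep.ofAlgebraAutOnUnits F L := Rep.toAdditive.symm (Additive.ofMul x)

theorem uA_mul (x y : Lˣ) : uA (x * y) = uA x + uA y := rfl

theorem uA_one : uA (1 : Lˣ) = 0 := rfl

theorem uA_pow (x : Lˣ) (n : ℕ) : uA (x ^ n) = n • uA x := rfl

theorem ρ_uA (τ : L ≃ₐ[F] L) (x : Lˣ) :
    (Rep.ofAlgebraAutOnUnits F L).ρ τ (uA x) = uA (Units.map (τ : L →* L) x) := rfl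

theorem uA_injective : Function.Injective (uA : Lˣ → Rep.ofAlgebraAutOnUnits F L) :=
  fun _ _ h => h

theorem exists_uA (a : Rep.ofAlgebraAutOnUnits F L) : ∃ x : Lˣ, uA x = a :=
  ⟨Additive.toMul (Rep.toAdditive a), rfl⟩

variable (p : ℕ) [Fact p.Prime]

omit [Fact p.Prime] in
theorem zetaPow_eq (ζ : Lˣ) (a : ZMod p) : zetaPow p ζ a = uA (ζ ^ a.val) := rfl

theorem zetaPow_add (ζ : Lˣ) (hζ : ζ ^ p = 1) (a b : ZMod p) :
    zetaPow p ζ (a + b) = zetaPow p ζ a + zetaPow p ζ b := by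
  rw [zetaPow_eq, zetaPow_eq, zetaPow_eq, ← uA_mul, ← pow_add, ZMod.val_add,
    ← pow_eq_pow_mod _ hζ]

/-- `a ↦ ζ ^ a` as an additive map. -/
def zetaHom (ζ : Lˣ) (hζ : ζ ^ p = 1) : ZMod p →+ Rep.ofAlgebraAutOnUnits F L :=
  AddMonoidHom.mk' (zetaPow p ζ) (zetaPow_add p ζ hζ)

theorem zetaHom_apply (ζ : Lˣ) (hζ : ζ ^ p = 1) (a : ZMod p) :
    zetaHom p ζ hζ a = zetaPow p ζ a := rfl

theorem ρ_zetaPow (ζ : Lˣ) (hζ : ζ ^ p = 1) (τ : L ≃ₐ[F] L) (c : ZMod p)
    (hτ : τ (ζ : L) = (ζ : L) ^ c.val) (a : ZMod p) :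
    (Rep.ofAlgebraAutOnUnits F L).ρ τ (zetaPow p ζ a) = zetaPow p ζ (c * a) := by
  rw [zetaPow_eq, zetaPow_eq, ρ_uA]
  congr 1
  apply Units.ext
  show τ ((ζ ^ a.val : Lˣ) : L) = ((ζ ^ (c * a).val : Lˣ) : L)
  rw [Units.val_pow_eq_pow_val, map_pow, hτ, ← pow_mul, ZMod.val_mul,
    ← Units.val_pow_eq_pow_val, ← pow_eq_pow_mod _ hζ]

end UA

/-! ### The cyclotomic character and the index of `Gal(Ω/E)` -/

section Cyclo

variable (p : ℕ) [Fact p.Prime] (q : ℕ) [Fact q.Prime]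

/-- The local cyclotomic character gives the action on `p`-th roots of unity of `Ω`. -/
theorem chiLoc_spec (g : GalQ q) (ζ : PadicAlgCl q) (hζ : ζ ^ p = 1) :
    g ζ = ζ ^ ((chiLoc p q g : (ZMod p)ˣ) : ZMod p).val := by
  have : NeZero p := ⟨(Fact.out : p.Prime).ne_zero⟩
  obtain ⟨ζ₀, hζ₀⟩ := HasEnoughRootsOfUnity.exists_primitiveRoot (AlgebraicClosure ℚ) p
  have h1 : IsPrimitiveRoot (padicEmbedding q ζ₀) p :=
    hζ₀.map_of_injective (padicEmbedding q).injective
  obtain ⟨i, -, hi⟩ := h1.eq_pow_of_pow_eq_one hζ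
  have hu : IsUnit ζ₀ := hζ₀.isUnit (NeZero.ne p)
  have hmem : hu.unit ∈ rootsOfUnity p (AlgebraicClosure ℚ) := by
    rw [mem_rootsOfUnity]
    apply Units.ext
    rw [Units.val_pow_eq_pow_val, IsUnit.unit_spec, hζ₀.pow_eq_one]
    rfl
  have hspec := modularCyclotomicCharacter.spec (AlgebraicClosure ℚ)
    (ExtCitation.card_rootsOfUnity_eq_self p)
    ((localGaloisToGlobal q g : AlgebraicClosure ℚ ≃ₐ[ℚ] AlgebraicClosure ℚ) :
      AlgebraicClosure ℚ ≃+* AlgebraicClosure ℚ) hmem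
  have h2 : localGaloisToGlobal q g ζ₀ = ζ₀ ^ ((chiLoc p q g : (ZMod p)ˣ) : ZMod p).val := by
    have := hspec
    rw [IsUnit.unit_spec] at this
    exact this
  rw [← hi, map_pow, ← padicEmbedding_localGaloisToGlobal, h2, map_pow, ← pow_mul, ← pow_mul,
    mul_comm]

theorem card_quot_fixingSubgroup (E : IntermediateField ℚ_[q] (PadicAlgCl q)) :
    Nat.card (GalQ q ⧸ E.fixingSubgroup) = Module.finrank ℚ_[q] E := by
  rw [← Subgroup.index_eq_card, IntermediateField.finrank_eq_fixingSubgroup_index]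

theorem finite_quot_fixingSubgroup (E : IntermediateField ℚ_[q] (PadicAlgCl q))
    [FiniteDimensional ℚ_[q] E] : Finite (GalQ q ⧸ E.fixingSubgroup) := by
  apply Nat.finite_of_card_ne_zero
  rw [card_quot_fixingSubgroup]
  exact Module.finrank_pos.ne'

end Cyclo

/-! ### Restriction maps -/

section Restr

variable {q : ℕ} [Fact q.Prime]

/-- Restriction to a finite Galois level. -/
abbrev resTop (Lt : IntermediateField ℚ_[q] (PadicAlgCl q)) [Normal ℚ_[q] Lt] :
    GalQ q →* (Lt ≃ₐ[ℚ_[q]] Lt) :=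
  AlgEquiv.restrictNormalHom Lt

theorem resTop_apply_coe (Lt : IntermediateField ℚ_[q] (PadicAlgCl q)) [Normal ℚ_[q] Lt]
    (g : GalQ q) (x : Lt) : ((resTop Lt g x : Lt) : PadicAlgCl q) = g (x : PadicAlgCl q) :=
  AlgEquiv.restrictNormal_commutes g Lt x

theorem resTop_surjective (Lt : IntermediateField ℚ_[q] (PadicAlgCl q)) [Normal ℚ_[q] Lt] :
    Function.Surjective (resTop Lt) :=
  AlgEquiv.restrictNormalHom_surjective (PadicAlgCl q)

theorem resTop_eq_one_iff (Lt : IntermediateField ℚ_[q] (PadicAlgCl q)) [Normal ℚ_[q] Lt]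
    (g : GalQ q) : resTop Lt g = 1 ↔ g ∈ Lt.fixingSubgroup := by
  rw [IntermediateField.mem_fixingSubgroup_iff]
  constructor
  · intro h x hx
    have := resTop_apply_coe Lt g ⟨x, hx⟩
    rw [h] at this
    exact this.symm
  · intro h
    ext x
    rw [resTop_apply_coe]
    exact h x x.2

theorem resE_apply_coe (E : IntermediateField ℚ_[q] (PadicAlgCl q))
    (L' : IntermediateField E (PadicAlgCl q)) [Normal E L'] (h : E.fixingSubgroup) (x : L') :
    ((resE E L' h x : L') : PadicAlgCl q) = (h : GalQ q) (x : PadicAlgCl q) :=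
  AlgEquiv.restrictNormal_commutes (IntermediateField.fixingSubgroupEquiv E h) L' x

end Restr

/-! ### The finite level -/

section Level

variable (p : ℕ) [Fact p.Prime] (q : ℕ) [Fact q.Prime]

/-- A finite Galois extension of `ℚ_q` containing `L'` and modulo whose Galois group the level
cocycle `z` is constant. -/
theorem exists_level_field (hLVL : LocalFieldLevelsStatement q)
    {M : Rep.{0} (ZMod p) (GalQ q)} (z : cyc (lcComplex (Dloc q) M) 2)
    (E : IntermediateField ℚ_[q] (PadicAlgCl q)) [FiniteDimensional ℚ_[q] E]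
    (L' : IntermediateField E (PadicAlgCl q)) [FiniteDimensional E L'] :
    ∃ Lt : IntermediateField ℚ_[q] (PadicAlgCl q), FiniteDimensional ℚ_[q] Lt ∧
      IsGalois ℚ_[q] Lt ∧ E ≤ Lt ∧ (∀ x : L', (x : PadicAlgCl q) ∈ Lt) ∧
      ∀ g g' s s' : GalQ q, s ∈ Lt.fixingSubgroup → s' ∈ Lt.fixingSubgroup →
        lcVal z ![g * s, g' * s'] = lcVal z ![g, g'] := by
  obtain ⟨F, hF, hlc⟩ := plc₂_of_isLC (isLC_lcValC (Dloc q) M z.1)
  obtain ⟨L₀, hL₀fin, -, hL₀⟩ := hLVL.1 F hF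
  have := hL₀fin
  let K₀ : IntermediateField ℚ_[q] (PadicAlgCl q) := L₀ ⊔ absField q L'
  have hK₀ : FiniteDimensional ℚ_[q] K₀ := IntermediateField.finiteDimensional_sup _ _
  have hfin : FiniteDimensional ℚ_[q] (normalClosure ℚ_[q] K₀ (PadicAlgCl q)) :=
    normalClosure.is_finiteDimensional ℚ_[q] K₀ (PadicAlgCl q)
  have hnor : Normal ℚ_[q] (normalClosure ℚ_[q] K₀ (PadicAlgCl q)) :=
    normalClosure.normal ℚ_[q] K₀ (PadicAlgCl q)
  have hle : K₀ ≤ normalClosure ℚ_[q] K₀ (PadicAlgCl q) := IntermediateField.le_normalClosure K₀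
  have hL' : ∀ x : L', (x : PadicAlgCl q) ∈ normalClosure ℚ_[q] K₀ (PadicAlgCl q) := by
    intro x
    apply hle
    apply (le_sup_right : absField q L' ≤ K₀)
    exact ⟨x, rfl⟩
  refine ⟨normalClosure ℚ_[q] K₀ (PadicAlgCl q), hfin, ⟨⟩, ?_, hL', ?_⟩
  · intro e he
    exact hL' (algebraMap E L' ⟨e, he⟩)
  · intro g g' s s' hs hs'
    have h1 : ∀ t ∈ (normalClosure ℚ_[q] K₀ (PadicAlgCl q)).fixingSubgroup,
        (Dloc q).r t ∈ F.fixingSubgroup := by
      intro t ht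
      exact hL₀ (IntermediateField.fixingSubgroup_antitone (le_sup_left.trans hle) ht)
    exact hlc g g' s s' (h1 s hs) (h1 s' hs')

end Level

/-! ### Permutation modules -/

section Perm

variable {G : Type} [Group G] {k : Type} [Field k]

theorem permCoeff_ρ (H : Subgroup G) (g : G) (v : permRep k H) (x : G ⧸ H) :
    permCoeff H ((permRep k H).ρ g v) x = permCoeff H v (g⁻¹ • x) :=
  Representation.coeff_ofMulAction g v x

theorem augChar_hom_eq_sum (χ : G →* kˣ) (H : Subgroup G) [Fintype (G ⧸ H)]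
    (hH : ∀ s ∈ H, χ s = 1) (v : permRep k H) :
    (augChar χ H hH).hom v = ∑ x : G ⧸ H, permCoeff H v x * charQuot χ H hH x := by
  show permLift (charQuot χ H hH) v = _
  unfold permLift
  rw [LinearMap.comp_apply, Finsupp.linearCombination_apply, Finsupp.sum_fintype]
  · rfl
  · intro i
    exact zero_smul _ _

end Perm

end Fermat.Agent.S55.H3
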