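/-
Program C (S55), package C4, leaf (CMP) `H26.LocalInvCompStatement`: the generic norm argument.
Prover: helper3.

`G` a group, `H` a subgroup of finite index, `N ≤ H` normal in `G`, `r : G → Γ` a homomorphism
killing `N`, `A` a `Γ`-module, `χ` a character of `G` trivial on `H`, `e : k → A` additive with
`g • e a = e (χ g * a)`.  For a 2-cocycle `c₂` of `G` in `k[G ⧸ H]` (constant modulo `N`) and a
2-cocycle `w` of `Γ` in `A` such that on `H` the cochain `e (coefficient of c₂ at H) - w ∘ r`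
is a coboundary (in homogeneous form, `hres`), the cochain `e (aug c₂) - [G : H] • w ∘ r` is the
coboundary of a cochain constant modulo `N` (`norm_cobound`), hence descends to `Γ`
(`norm_cobound_descend`).
-/
import Fermat.Agent.S55.H3.LocalInvUtil

set_option autoImplicit false

noncomputable section

namespace Fermat.Agent.S55.H3

open CategoryTheory groupCohomology
open Fermat.Agent.S55.H49 Fermat.Agent.S55.H26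

section Coef

variable {G : Type} [Group G] {k : Type} [Field k]

theorem permCoeff_add (H : Subgroup G) (v w : permRep k H) (x : G ⧸ H) :
    permCoeff H (v + w) x = permCoeff H v x + permCoeff H w x := by
  unfold permCoeff
  rw [map_add]
  rfl

/-- The homogeneous cochain `(y₀, y₁, y₂) ↦ coefficient of c₂ (y₀⁻¹y₁, y₁⁻¹y₂) at y₀⁻¹H`. -/
def hcoef (H : Subgroup G) (c₂ : G × G → permRep k H) (y₀ y₁ y₂ : G) : k :=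
  permCoeff H (c₂ (y₀⁻¹ * y₁, y₁⁻¹ * y₂)) ((y₀⁻¹ : G) : G ⧸ H)

theorem hcoef_left (H : Subgroup G) (c₂ : G × G → permRep k H) (h : G) (hh : h ∈ H)
    (y₀ y₁ y₂ : G) : hcoef H c₂ (h * y₀) (h * y₁) (h * y₂) = hcoef H c₂ y₀ y₁ y₂ := by
  unfold hcoef
  have e1 : (h * y₀)⁻¹ * (h * y₁) = y₀⁻¹ * y₁ := by group
  have e2 : (h * y₁)⁻¹ * (h * y₂) = y₁⁻¹ * y₂ := by group
  have e3 : (((h * y₀)⁻¹ : G) : G ⧸ H) = ((y₀⁻¹ : G) : G ⧸ H) := by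
    rw [QuotientGroup.eq]
    have e : ((h * y₀)⁻¹)⁻¹ * y₀⁻¹ = h := by group
    rw [e]
    exact hh
  rw [e1, e2, e3]

theorem hcoef_right (H N : Subgroup G) (hN : N.Normal) (hNH : N ≤ H)
    (c₂ : G × G → permRep k H)
    (hconst : ∀ g g' s s' : G, s ∈ N → s' ∈ N → c₂ (g * s, g' * s') = c₂ (g, g'))
    (y₀ y₁ y₂ n₀ n₁ n₂ : G) (h₀ : n₀ ∈ N) (h₁ : n₁ ∈ N) (h₂ : n₂ ∈ N) :
    hcoef H c₂ (y₀ * n₀) (y₁ * n₁) (y₂ * n₂) = hcoef H c₂ y₀ y₁ y₂ := by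
  unfold hcoef
  have e1 : (y₀ * n₀)⁻¹ * (y₁ * n₁) =
      y₀⁻¹ * y₁ * ((y₀⁻¹ * y₁)⁻¹ * n₀⁻¹ * (y₀⁻¹ * y₁) * n₁) := by group
  have e2 : (y₁ * n₁)⁻¹ * (y₂ * n₂) =
      y₁⁻¹ * y₂ * ((y₁⁻¹ * y₂)⁻¹ * n₁⁻¹ * (y₁⁻¹ * y₂) * n₂) := by group
  have m1 : (y₀⁻¹ * y₁)⁻¹ * n₀⁻¹ * (y₀⁻¹ * y₁) * n₁ ∈ N :=
    N.mul_mem (hN.conj_mem' _ (N.inv_mem h₀) _) h₁
  have m2 : (y₁⁻¹ * y₂)⁻¹ * n₁⁻¹ * (y₁⁻¹ * y₂) * n₂ ∈ N :=
    N.mul_mem (hN.conj_mem' _ (N.inv_mem h₁) _) h₂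
  have e3 : (((y₀ * n₀)⁻¹ : G) : G ⧸ H) = ((y₀⁻¹ : G) : G ⧸ H) := by
    rw [QuotientGroup.eq]
    have e : ((y₀ * n₀)⁻¹)⁻¹ * y₀⁻¹ = y₀ * n₀ * y₀⁻¹ := by group
    rw [e]
    exact hNH (hN.conj_mem _ h₀ _)
  rw [e1, e2, hconst _ _ _ _ m1 m2, e3]

theorem hcoef_cocycle (H : Subgroup G) (c₂ : G × G → permRep k H)
    (hc₂ : c₂ ∈ cocycles₂ (permRep k H)) (y₀ y₁ y₂ y₃ : G) :
    hcoef H c₂ y₁ y₂ y₃ - hcoef H c₂ y₀ y₂ y₃ + hcoef H c₂ y₀ y₁ y₃ - hcoef H c₂ y₀ y₁ y₂ = 0 := by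
  unfold hcoef
  have h := (mem_cocycles₂_iff c₂).1 hc₂ (y₀⁻¹ * y₁) (y₁⁻¹ * y₂) (y₂⁻¹ * y₃)
  have e1 : y₀⁻¹ * y₁ * (y₁⁻¹ * y₂) = y₀⁻¹ * y₂ := by group
  have e2 : y₁⁻¹ * y₂ * (y₂⁻¹ * y₃) = y₁⁻¹ * y₃ := by group
  rw [e1, e2] at h
  have h' : permCoeff H (c₂ (y₀⁻¹ * y₂, y₂⁻¹ * y₃) + c₂ (y₀⁻¹ * y₁, y₁⁻¹ * y₂))
        ((y₀⁻¹ : G) : G ⧸ H) =
      permCoeff H ((permRep k H).ρ (y₀⁻¹ * y₁) (c₂ (y₁⁻¹ * y₂, y₂⁻¹ * y₃)) +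
        c₂ (y₀⁻¹ * y₁, y₁⁻¹ * y₃)) ((y₀⁻¹ : G) : G ⧸ H) :=
    congrArg (fun v => permCoeff H v ((y₀⁻¹ : G) : G ⧸ H)) h
  rw [permCoeff_add, permCoeff_add, permCoeff_ρ] at h'
  have e3 : (y₀⁻¹ * y₁)⁻¹ • ((y₀⁻¹ : G) : G ⧸ H) = ((y₁⁻¹ : G) : G ⧸ H) := by
    show (((y₀⁻¹ * y₁)⁻¹ * y₀⁻¹ : G) : G ⧸ H) = _
    congr 1
    group
  rw [e3] at h'
  rw [sub_eq_zero, sub_add_eq_add_sub, sub_eq_iff_eq_add, ← h', add_comm]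

theorem hcoef_out (H : Subgroup G) (c₂ : G × G → permRep k H) (x g₁ g₂ : G) :
    hcoef H c₂ x⁻¹ (x⁻¹ * g₁) (x⁻¹ * g₁ * g₂) = permCoeff H (c₂ (g₁, g₂)) ((x : G) : G ⧸ H) := by
  unfold hcoef
  have e1 : (x⁻¹)⁻¹ * (x⁻¹ * g₁) = g₁ := by group
  have e2 : (x⁻¹ * g₁)⁻¹ * (x⁻¹ * g₁ * g₂) = g₂ := by group
  rw [e1, e2, inv_inv]

end Coef

section Pull

variable {G Γ : Type} [Group G] [Group Γ] {R : Type} [CommRing R]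

/-- The homogeneous cochain of the pull-back of an inhomogeneous cochain `w` along `r`. -/
def hpull (A : Rep.{0} R Γ) (r : G →* Γ) (w : Γ × Γ → A) (y₀ y₁ y₂ : G) : A :=
  A.ρ (r y₀) (w (r (y₀⁻¹ * y₁), r (y₁⁻¹ * y₂)))

theorem hpull_left (A : Rep.{0} R Γ) (r : G →* Γ) (w : Γ × Γ → A) (g y₀ y₁ y₂ : G) :
    hpull A r w (g * y₀) (g * y₁) (g * y₂) = A.ρ (r g) (hpull A r w y₀ y₁ y₂) := by
  unfold hpull
  have e1 : (g * y₀)⁻¹ * (g * y₁) = y₀⁻¹ * y₁ := by group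
  have e2 : (g * y₁)⁻¹ * (g * y₂) = y₁⁻¹ * y₂ := by group
  rw [e1, e2, map_mul, map_mul]
  rfl

theorem hpull_right (A : Rep.{0} R Γ) (r : G →* Γ) (w : Γ × Γ → A) (N : Subgroup G)
    (hr : ∀ n ∈ N, r n = 1) (y₀ y₁ y₂ n₀ n₁ n₂ : G) (h₀ : n₀ ∈ N) (h₁ : n₁ ∈ N) (h₂ : n₂ ∈ N) :
    hpull A r w (y₀ * n₀) (y₁ * n₁) (y₂ * n₂) = hpull A r w y₀ y₁ y₂ := by
  unfold hpull
  have e0 : r (y₀ * n₀) = r y₀ := by rw [map_mul, hr n₀ h₀, mul_one]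
  have e1 : r ((y₀ * n₀)⁻¹ * (y₁ * n₁)) = r (y₀⁻¹ * y₁) := by
    rw [map_mul, map_inv, map_mul, map_mul, hr n₀ h₀, hr n₁ h₁, mul_one, mul_one, map_mul,
      map_inv]
  have e2 : r ((y₁ * n₁)⁻¹ * (y₂ * n₂)) = r (y₁⁻¹ * y₂) := by
    rw [map_mul, map_inv, map_mul, map_mul, hr n₁ h₁, hr n₂ h₂, mul_one, mul_one, map_mul,
      map_inv]
  rw [e0, e1, e2]

theorem hpull_cocycle (A : Rep.{0} R Γ) (r : G →* Γ) (w : Γ × Γ → A) (hw : w ∈ cocycles₂ A)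
    (y₀ y₁ y₂ y₃ : G) :
    hpull A r w y₁ y₂ y₃ - hpull A r w y₀ y₂ y₃ + hpull A r w y₀ y₁ y₃ - hpull A r w y₀ y₁ y₂
      = 0 := by
  unfold hpull
  have h := (mem_cocycles₂_iff w).1 hw (r (y₀⁻¹ * y₁)) (r (y₁⁻¹ * y₂)) (r (y₂⁻¹ * y₃))
  have e1 : y₀⁻¹ * y₁ * (y₁⁻¹ * y₂) = y₀⁻¹ * y₂ := by group
  have e2 : y₁⁻¹ * y₂ * (y₂⁻¹ * y₃) = y₁⁻¹ * y₃ := by group
  rw [← map_mul, ← map_mul, e1, e2] at h
  have h' := congrArg (A.ρ (r y₀)) h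
  rw [map_add, map_add] at h'
  have e3 : A.ρ (r y₀) (A.ρ (r (y₀⁻¹ * y₁)) (w (r (y₁⁻¹ * y₂), r (y₂⁻¹ * y₃)))) =
      A.ρ (r y₁) (w (r (y₁⁻¹ * y₂), r (y₂⁻¹ * y₃))) := by
    rw [← Module.End.mul_apply, ← map_mul, ← map_mul, mul_inv_cancel_left]
  rw [e3] at h'
  rw [sub_eq_zero, sub_add_eq_add_sub, sub_eq_iff_eq_add, ← h', add_comm]

theorem hpull_out (A : Rep.{0} R Γ) (r : G →* Γ) (w : Γ × Γ → A) (x g₁ g₂ : G) :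
    A.ρ (r x) (hpull A r w x⁻¹ (x⁻¹ * g₁) (x⁻¹ * g₁ * g₂)) = w (r g₁, r g₂) := by
  unfold hpull
  have e1 : (x⁻¹)⁻¹ * (x⁻¹ * g₁) = g₁ := by group
  have e2 : (x⁻¹ * g₁)⁻¹ * (x⁻¹ * g₁ * g₂) = g₂ := by group
  rw [e1, e2, ← Module.End.mul_apply, ← map_mul, ← map_mul, mul_inv_cancel, map_one, map_one]
  rfl

end Pull

section Norm

variable {G Γ : Type} [Group G] [Group Γ] {k : Type} [Field k] {R : Type} [CommRing R]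

/-- **The norm argument.**  See the file header. -/
theorem norm_cobound (H N : Subgroup G) [Fintype (G ⧸ H)] (hN : N.Normal) (hNH : N ≤ H)
    (r : G →* Γ) (hr : ∀ n ∈ N, r n = 1) (A : Rep.{0} R Γ) (χ : G →* kˣ)
    (hχ : ∀ s ∈ H, χ s = 1) (e : k →+ A)
    (he : ∀ (g : G) (a : k), A.ρ (r g) (e a) = e ((χ g : k) * a))
    (c₂ : G × G → permRep k H) (hc₂ : c₂ ∈ cocycles₂ (permRep k H))
    (hconst : ∀ g g' s s' : G, s ∈ N → s' ∈ N → c₂ (g * s, g' * s') = c₂ (g, g'))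
    (w : Γ × Γ → A) (hw : w ∈ cocycles₂ A) (bt : H → H → A)
    (hbH : ∀ h h₀ h₁ : H, bt (h * h₀) (h * h₁) = A.ρ (r h) (bt h₀ h₁))
    (hbN : ∀ h₀ h₁ n₀ n₁ : H, (n₀ : G) ∈ N → (n₁ : G) ∈ N → bt (h₀ * n₀) (h₁ * n₁) = bt h₀ h₁)
    (hres : ∀ h₀ h₁ h₂ : H, e (hcoef H c₂ h₀ h₁ h₂) - hpull A r w h₀ h₁ h₂ =
      bt h₁ h₂ - bt h₀ h₂ + bt h₀ h₁) :
    ∃ β : G → A, (∀ g, ∀ n ∈ N, β (g * n) = β g) ∧ ∀ g₁ g₂ : G,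
      e ((augChar χ H hχ).hom (c₂ (g₁, g₂))) - Fintype.card (G ⧸ H) • w (r g₁, r g₂) =
        A.ρ (r g₁) (β g₂) - β (g₁ * g₂) + β g₁ := by
  classical
  have hFH : ∀ h ∈ H, ∀ y₀ y₁ y₂ : G,
      e (hcoef H c₂ (h * y₀) (h * y₁) (h * y₂)) - hpull A r w (h * y₀) (h * y₁) (h * y₂) =
        A.ρ (r h) (e (hcoef H c₂ y₀ y₁ y₂) - hpull A r w y₀ y₁ y₂) := by
    intro h hh y₀ y₁ y₂
    rw [hcoef_left H c₂ h hh, hpull_left, map_sub, he, hχ h hh, Units.val_one, one_mul]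
  have hFN : ∀ y₀ y₁ y₂ : G, ∀ n₀ ∈ N, ∀ n₁ ∈ N, ∀ n₂ ∈ N,
      e (hcoef H c₂ (y₀ * n₀) (y₁ * n₁) (y₂ * n₂)) -
          hpull A r w (y₀ * n₀) (y₁ * n₁) (y₂ * n₂) =
        e (hcoef H c₂ y₀ y₁ y₂) - hpull A r w y₀ y₁ y₂ := by
    intro y₀ y₁ y₂ n₀ h₀ n₁ h₁ n₂ h₂
    rw [hcoef_right H N hN hNH c₂ hconst y₀ y₁ y₂ n₀ n₁ n₂ h₀ h₁ h₂,
      hpull_right A r w N hr y₀ y₁ y₂ n₀ n₁ n₂ h₀ h₁ h₂]
  have hFc : ∀ y₀ y₁ y₂ y₃ : G,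
      (e (hcoef H c₂ y₁ y₂ y₃) - hpull A r w y₁ y₂ y₃) -
        (e (hcoef H c₂ y₀ y₂ y₃) - hpull A r w y₀ y₂ y₃) +
        (e (hcoef H c₂ y₀ y₁ y₃) - hpull A r w y₀ y₁ y₃) -
        (e (hcoef H c₂ y₀ y₁ y₂) - hpull A r w y₀ y₁ y₂) = 0 := by
    intro y₀ y₁ y₂ y₃
    have h1 := hcoef_cocycle H c₂ hc₂ y₀ y₁ y₂ y₃
    have h2 := hpull_cocycle A r w hw y₀ y₁ y₂ y₃
    have key : ∀ (a1 a2 a3 a4 : k) (b1 b2 b3 b4 : A),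
        (e a1 - b1) - (e a2 - b2) + (e a3 - b3) - (e a4 - b4) =
          e (a1 - a2 + a3 - a4) - (b1 - b2 + b3 - b4) := by
      intro a1 a2 a3 a4 b1 b2 b3 b4
      rw [map_sub, map_add, map_sub]
      abel
    rw [key, h1, h2, map_zero, sub_zero]
  obtain ⟨β, hβN, hβ⟩ := exists_cobound_of_shapiro H N hN hNH (fun g a => A.ρ (r g) a)
    (fun g g' a => by rw [map_mul, map_mul]; rfl) (fun a => by rw [map_one, map_one]; rfl)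
    (fun g a a' => map_add _ _ _)
    (fun y₀ y₁ y₂ => e (hcoef H c₂ y₀ y₁ y₂) - hpull A r w y₀ y₁ y₂)
    hFH hFN hFc bt hbH hbN hres
  refine ⟨β, hβN, fun g₁ g₂ => ?_⟩
  rw [← hβ g₁ g₂]
  have hsum : ∀ x : G ⧸ H,
      A.ρ (r (Quotient.out x)) (e (hcoef H c₂ (Quotient.out x)⁻¹ ((Quotient.out x)⁻¹ * g₁)
        ((Quotient.out x)⁻¹ * g₁ * g₂)) - hpull A r w (Quotient.out x)⁻¹
        ((Quotient.out x)⁻¹ * g₁) ((Quotient.out x)⁻¹ * g₁ * g₂)) =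
      e (permCoeff H (c₂ (g₁, g₂)) x * charQuot χ H hχ x) - w (r g₁, r g₂) := by
    intro x
    have hx : ((Quotient.out x : G) : G ⧸ H) = x := QuotientGroup.out_eq' x
    have hcq : charQuot χ H hχ x = (χ (Quotient.out x) : k) :=
      (congrArg (charQuot χ H hχ) hx).symm.trans (charQuot_mk χ H hχ _)
    rw [map_sub, he, hcoef_out, hpull_out, hx, hcq, mul_comm]
  rw [Finset.sum_congr rfl fun x _ => hsum x, Finset.sum_sub_distrib, Finset.sum_const,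
    Finset.card_univ, augChar_hom_eq_sum, map_sum]

/-- Descent of `norm_cobound` to the quotient `Γ`. -/
theorem norm_cobound_descend (H N : Subgroup G) [Fintype (G ⧸ H)] (hN : N.Normal) (hNH : N ≤ H)
    (r : G →* Γ) (hrsurj : Function.Surjective r) (hr : ∀ g, r g = 1 ↔ g ∈ N)
    (A : Rep.{0} R Γ) (χ : G →* kˣ)
    (hχ : ∀ s ∈ H, χ s = 1) (e : k →+ A)
    (he : ∀ (g : G) (a : k), A.ρ (r g) (e a) = e ((χ g : k) * a))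
    (c₂ : G × G → permRep k H) (hc₂ : c₂ ∈ cocycles₂ (permRep k H))
    (hconst : ∀ g g' s s' : G, s ∈ N → s' ∈ N → c₂ (g * s, g' * s') = c₂ (g, g'))
    (w : Γ × Γ → A) (hw : w ∈ cocycles₂ A) (bt : H → H → A)
    (hbH : ∀ h h₀ h₁ : H, bt (h * h₀) (h * h₁) = A.ρ (r h) (bt h₀ h₁))
    (hbN : ∀ h₀ h₁ n₀ n₁ : H, (n₀ : G) ∈ N → (n₁ : G) ∈ N → bt (h₀ * n₀) (h₁ * n₁) = bt h₀ h₁)
    (hres : ∀ h₀ h₁ h₂ : H, e (hcoef H c₂ h₀ h₁ h₂) - hpull A r w h₀ h₁ h₂ =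
      bt h₁ h₂ - bt h₀ h₂ + bt h₀ h₁)
    (c' : Γ × Γ → A)
    (hc' : ∀ g₁ g₂ : G, c' (r g₁, r g₂) = e ((augChar χ H hχ).hom (c₂ (g₁, g₂)))) :
    ∃ β' : Γ → A, ∀ γ₁ γ₂ : Γ,
      c' (γ₁, γ₂) - Fintype.card (G ⧸ H) • w (γ₁, γ₂) =
        A.ρ γ₁ (β' γ₂) - β' (γ₁ * γ₂) + β' γ₁ := by
  obtain ⟨β, hβN, hβ⟩ := norm_cobound H N hN hNH r (fun n hn => (hr n).2 hn) A χ hχ e he c₂ hc₂
    hconst w hw bt hbH hbN hres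
  have hσ : ∀ γ, r (Function.surjInv hrsurj γ) = γ := Function.surjInv_eq hrsurj
  refine ⟨fun γ => β (Function.surjInv hrsurj γ), fun γ₁ γ₂ => ?_⟩
  have h := hβ (Function.surjInv hrsurj γ₁) (Function.surjInv hrsurj γ₂)
  rw [← hc', hσ, hσ] at h
  have hmem : (Function.surjInv hrsurj γ₁ * Function.surjInv hrsurj γ₂)⁻¹ *
      Function.surjInv hrsurj (γ₁ * γ₂) ∈ N := by
    rw [← hr, map_mul, map_inv, map_mul, hσ, hσ, hσ, inv_mul_cancel]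
  have h2 : β (Function.surjInv hrsurj (γ₁ * γ₂)) =
      β (Function.surjInv hrsurj γ₁ * Function.surjInv hrsurj γ₂) := by
    have h3 := hβN (Function.surjInv hrsurj γ₁ * Function.surjInv hrsurj γ₂) _ hmem
    rw [mul_inv_cancel_left] at h3
    exact h3
  show c' (γ₁, γ₂) - Fintype.card (G ⧸ H) • w (γ₁, γ₂) =
    A.ρ γ₁ (β (Function.surjInv hrsurj γ₂)) - β (Function.surjInv hrsurj (γ₁ * γ₂)) +
      β (Function.surjInv hrsurj γ₁)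
  rw [h, h2]

/-- The norm argument with the primitive on `H` given through a model `Δ` of (a quotient of) `H`:
`ρE : H → Δ`, `up : Δ → Γ` with `r|H = up ∘ ρE`, a `Δ`-module `B` with an equivariant additive
map `ι : B → A`, and a cochain identity `d b = X - Y` on `Δ` where `ι ∘ X` is `e` of the
coefficient of `c₂` at the trivial coset and `ι ∘ Y = w ∘ up`. -/
theorem norm_cobound_model {Δ : Type} [Group Δ] {R' : Type} [CommRing R']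
    (H N : Subgroup G) [Fintype (G ⧸ H)] (hN : N.Normal) (hNH : N ≤ H)
    (r : G →* Γ) (hrsurj : Function.Surjective r) (hr : ∀ g, r g = 1 ↔ g ∈ N)
    (A : Rep.{0} R Γ) (χ : G →* kˣ)
    (hχ : ∀ s ∈ H, χ s = 1) (e : k →+ A)
    (he : ∀ (g : G) (a : k), A.ρ (r g) (e a) = e ((χ g : k) * a))
    (c₂ : G × G → permRep k H) (hc₂ : c₂ ∈ cocycles₂ (permRep k H))
    (hconst : ∀ g g' s s' : G, s ∈ N → s' ∈ N → c₂ (g * s, g' * s') = c₂ (g, g'))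
    (w : Γ × Γ → A) (hw : w ∈ cocycles₂ A)
    (B : Rep.{0} R' Δ) (ρE : H →* Δ) (up : Δ →* Γ) (hup : ∀ h : H, r (h : G) = up (ρE h))
    (hρE : ∀ n : H, (n : G) ∈ N → ρE n = 1)
    (ι : B →+ A) (hι : ∀ (δ : Δ) (a : B), ι (B.ρ δ a) = A.ρ (up δ) (ι a))
    (b : Δ → B) (X Y : Δ → Δ → B)
    (hb : ∀ δ₁ δ₂ : Δ, B.ρ δ₁ (b δ₂) - b (δ₁ * δ₂) + b δ₁ = X δ₁ δ₂ - Y δ₁ δ₂)
    (hX : ∀ h₁ h₂ : H, ι (X (ρE h₁) (ρE h₂)) =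
      e (permCoeff H (c₂ ((h₁ : G), (h₂ : G))) ((1 : G) : G ⧸ H)))
    (hY : ∀ δ₁ δ₂ : Δ, ι (Y δ₁ δ₂) = w (up δ₁, up δ₂))
    (c' : Γ × Γ → A)
    (hc' : ∀ g₁ g₂ : G, c' (r g₁, r g₂) = e ((augChar χ H hχ).hom (c₂ (g₁, g₂)))) :
    ∃ β' : Γ → A, ∀ γ₁ γ₂ : Γ,
      c' (γ₁, γ₂) - Fintype.card (G ⧸ H) • w (γ₁, γ₂) =
        A.ρ γ₁ (β' γ₂) - β' (γ₁ * γ₂) + β' γ₁ := by
  have hbH : ∀ h h₀ h₁ : H,
      A.ρ (r ((h * h₀ : H) : G)) (ι (b (ρE ((h * h₀)⁻¹ * (h * h₁))))) =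
        A.ρ (r (h : G)) (A.ρ (r (h₀ : G)) (ι (b (ρE (h₀⁻¹ * h₁))))) := by
    intro h h₀ h₁
    have e1 : (h * h₀)⁻¹ * (h * h₁) = h₀⁻¹ * h₁ := by group
    rw [e1, Subgroup.coe_mul, map_mul, map_mul]
    rfl
  have hbN : ∀ h₀ h₁ n₀ n₁ : H, (n₀ : G) ∈ N → (n₁ : G) ∈ N →
      A.ρ (r ((h₀ * n₀ : H) : G)) (ι (b (ρE ((h₀ * n₀)⁻¹ * (h₁ * n₁))))) =
        A.ρ (r (h₀ : G)) (ι (b (ρE (h₀⁻¹ * h₁)))) := by
    intro h₀ h₁ n₀ n₁ hn₀ hn₁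
    have e1 : ρE ((h₀ * n₀)⁻¹ * (h₁ * n₁)) = ρE (h₀⁻¹ * h₁) := by
      rw [map_mul, map_inv, map_mul, map_mul, hρE n₀ hn₀, hρE n₁ hn₁, mul_one, mul_one,
        map_mul, map_inv]
    have e2 : r ((h₀ * n₀ : H) : G) = r (h₀ : G) := by
      rw [Subgroup.coe_mul, map_mul, (hr _).2 hn₀, mul_one]
    rw [e1, e2]
  have hres : ∀ h₀ h₁ h₂ : H, e (hcoef H c₂ h₀ h₁ h₂) - hpull A r w h₀ h₁ h₂ =
      A.ρ (r (h₁ : G)) (ι (b (ρE (h₁⁻¹ * h₂)))) - A.ρ (r (h₀ : G)) (ι (b (ρE (h₀⁻¹ * h₂)))) +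
        A.ρ (r (h₀ : G)) (ι (b (ρE (h₀⁻¹ * h₁)))) := by
    intro h₀ h₁ h₂
    have hδ := hb (ρE (h₀⁻¹ * h₁)) (ρE (h₁⁻¹ * h₂))
    have e1 : h₀⁻¹ * h₁ * (h₁⁻¹ * h₂) = h₀⁻¹ * h₂ := by group
    rw [← MonoidHom.map_mul, e1] at hδ
    have h1 := congrArg ι hδ
    rw [map_sub, map_add, map_sub, hι, ← hup, hX, hY, ← hup, ← hup] at h1
    have h2 := congrArg (A.ρ (r (h₀ : G))) h1
    rw [map_sub, map_add, map_sub, he, hχ _ h₀.2, Units.val_one, one_mul] at h2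
    have e2 : A.ρ (r (h₀ : G)) (A.ρ (r ((h₀⁻¹ * h₁ : H) : G)) (ι (b (ρE (h₁⁻¹ * h₂))))) =
        A.ρ (r (h₁ : G)) (ι (b (ρE (h₁⁻¹ * h₂)))) := by
      rw [← Module.End.mul_apply, ← map_mul, ← map_mul, Subgroup.coe_mul, Subgroup.coe_inv,
        mul_inv_cancel_left]
    rw [e2] at h2
    have e3 : (((h₀ : G)⁻¹ : G) : G ⧸ H) = ((1 : G) : G ⧸ H) := by
      rw [QuotientGroup.eq, inv_inv, mul_one]
      exact h₀.2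
    have e4 : hcoef H c₂ h₀ h₁ h₂ =
        permCoeff H (c₂ (((h₀⁻¹ * h₁ : H) : G), ((h₁⁻¹ * h₂ : H) : G))) ((1 : G) : G ⧸ H) := by
      unfold hcoef
      rw [e3]
      rfl
    rw [e4]
    exact h2.symm
  exact norm_cobound_descend H N hN hNH r hrsurj hr A χ hχ e he c₂ hc₂ hconst w hw
    (fun h₀ h₁ => A.ρ (r (h₀ : G)) (ι (b (ρE (h₀⁻¹ * h₁))))) hbH hbN hres c' hc'

end Norm

end Fermat.Agent.S55.H3
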