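/-
Program C (S55), package C4, leaf (CMP): `H26.LocalInvCompStatement p q`
("`inv_{ℚ_q} ∘ cores = inv_E`"), from the C3 leaves `LeafInv`, `LeafInvInfl`, `LeafInvRes` and
the level dictionary `H26.LocalFieldLevelsStatement q`.
Prover: helper3.
-/
import Fermat.Agent.S55.H3.ShapiroNorm

set_option autoImplicit false

noncomputable section

namespace Fermat.Agent.S55.H3

open CategoryTheory groupCohomology IntermediateField
open Fermat.Agent.S55.H49 Fermat.Agent.S55.H26 Fermat.Agent.S55.H66 Fermat.Agent.S55.H41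

section CocycleOfCyc

variable {k : Type} [CommRing k] {G : Type} [Group G]

/-- A 2-cocycle of the level-constant complex is a 2-cocycle in the sense of Mathlib. -/
theorem cocycle_lcVal (D : LevelDatum G) (M : Rep.{0} k G) (z : cyc (lcComplex D M) 2) :
    (fun g : G × G => lcVal z ![g.1, g.2]) ∈ cocycles₂ M := by
  rw [← d_toFin2_eq_zero_iff, toFin2_vec (lcVal z)]
  exact (mem_cyc_lc_iff D M z.1).1 z.2

end CocycleOfCyc

/-! ### Compatibilities of the restriction maps -/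

section Restr2

variable {q : ℕ} [Fact q.Prime]
variable {E Lt : IntermediateField ℚ_[q] (PadicAlgCl q)}

/-- (R1) -/
theorem resTop_coe_eq [Normal ℚ_[q] Lt] (hE : E ≤ Lt) [Normal E (extendScalars hE)]
    (h : E.fixingSubgroup) :
    resTop Lt (h : GalQ q) = upHom hE (resE E (extendScalars hE) h) := by
  apply AlgEquiv.ext
  intro x
  apply Subtype.ext
  rw [resTop_apply_coe, upHom_apply_coe, resE_apply_coe, upEquiv_symm_apply_coe]

/-- (R2) -/
theorem resHom_resE (L' LE : IntermediateField E (PadicAlgCl q)) [Normal E L'] [Normal E LE]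
    (hL' : L' ≤ LE) (h : E.fixingSubgroup) :
    resHom hL' (resE E LE h) = resE E L' h := by
  apply AlgEquiv.ext
  intro x
  apply Subtype.ext
  rw [resHom_apply, resE_apply_coe, resE_apply_coe]
  rfl

/-- (R3) -/
theorem unitsDown_ρ (hE : E ≤ Lt) (δ : (extendScalars hE) ≃ₐ[E] (extendScalars hE))
    (a : Rep.ofAlgebraAutOnUnits E (extendScalars hE)) :
    H93.unitsDown hE ((Rep.ofAlgebraAutOnUnits E (extendScalars hE)).ρ δ a) =
      (Rep.ofAlgebraAutOnUnits ℚ_[q] Lt).ρ (upHom hE δ) (H93.unitsDown hE a) := by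
  apply Additive.toMul.injective
  apply Units.ext
  exact (H93.upHom_apply_upEquiv hE δ _).symm

/-- (R4) -/
theorem unitsDown_unitsUp (hE : E ≤ Lt) (v : Additive Ltˣ) :
    H93.unitsDown hE (unitsUp hE v) = v := by
  rw [← H93.unitsDown_symm_eq, LinearEquiv.apply_symm_apply]

/-- (R5) -/
theorem unitsDown_unitsIncl_zetaPow (p : ℕ) (hE : E ≤ Lt)
    (L' : IntermediateField E (PadicAlgCl q)) (hL' : L' ≤ extendScalars hE) (ζ' : L'ˣ)
    (ζL : Ltˣ) (hζ : ((ζ' : L') : PadicAlgCl q) = ((ζL : Lt) : PadicAlgCl q)) (a : ZMod p) :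
    H93.unitsDown hE (unitsIncl hL' (zetaPow p ζ' a)) = zetaPow p ζL a := by
  apply Additive.toMul.injective
  apply Units.ext
  apply Subtype.ext
  show (((ζ' ^ a.val : L'ˣ) : L') : PadicAlgCl q) = (((ζL ^ a.val : Ltˣ) : Lt) : PadicAlgCl q)
  rw [Units.val_pow_eq_pow_val, Units.val_pow_eq_pow_val]
  show ((ζ' : L') : PadicAlgCl q) ^ a.val = ((ζL : Lt) : PadicAlgCl q) ^ a.val
  rw [hζ]

/-- (R6) -/
theorem resE_eq_one (hE : E ≤ Lt) [Normal E (extendScalars hE)] (n : E.fixingSubgroup)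
    (hn : (n : GalQ q) ∈ Lt.fixingSubgroup) : resE E (extendScalars hE) n = 1 := by
  apply AlgEquiv.ext
  intro y
  apply Subtype.ext
  rw [resE_apply_coe]
  exact (IntermediateField.mem_fixingSubgroup_iff _ _).1 hn _ y.2

end Restr2

/-! ### The cocycle at the top level -/

section TopCocycle

variable (p : ℕ) [Fact p.Prime] (q : ℕ) [Fact q.Prime]

theorem resTop_zeta (ζ : PadicAlgCl q) (hζ : ζ ^ p = 1)
    (Lt : IntermediateField ℚ_[q] (PadicAlgCl q)) [Normal ℚ_[q] Lt] (ζL : Ltˣ)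
    (hζL : ((ζL : Lt) : PadicAlgCl q) = ζ) (g : GalQ q) :
    resTop Lt g (ζL : Lt) = (ζL : Lt) ^ ((chiLoc p q g : (ZMod p)ˣ) : ZMod p).val := by
  apply Subtype.ext
  rw [resTop_apply_coe, hζL]
  show g ζ = ((ζL : Lt) : PadicAlgCl q) ^ _
  rw [hζL]
  exact chiLoc_spec p q g ζ hζ

omit [Fact p.Prime] in
theorem zetaL_pow (ζ : PadicAlgCl q) (hζ : ζ ^ p = 1)
    (Lt : IntermediateField ℚ_[q] (PadicAlgCl q)) (ζL : Ltˣ)
    (hζL : ((ζL : Lt) : PadicAlgCl q) = ζ) : ζL ^ p = 1 := by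
  apply Units.ext
  apply Subtype.ext
  rw [Units.val_pow_eq_pow_val]
  show ((ζL : Lt) : PadicAlgCl q) ^ p = 1
  rw [hζL, hζ]

/-- The unit-valued 2-cocycle `ζ ^ a₂` of `Gal(L/ℚ_q)` attached to a 2-cocycle `a₂` of `G_q`
with values in `𝔽_p(χ)` which is constant modulo `Gal(Ω/L)`. -/
theorem exists_top_cocycle (ζ : PadicAlgCl q) (hζ : ζ ^ p = 1)
    (Lt : IntermediateField ℚ_[q] (PadicAlgCl q)) [Normal ℚ_[q] Lt] (ζL : Ltˣ)
    (hζL : ((ζL : Lt) : PadicAlgCl q) = ζ)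
    (a₂ : GalQ q × GalQ q → ZMod p) (ha₂ : a₂ ∈ cocycles₂ (mu (chiLoc p q)))
    (hconst : ∀ g g' s s' : GalQ q, s ∈ Lt.fixingSubgroup → s' ∈ Lt.fixingSubgroup →
      a₂ (g * s, g' * s') = a₂ (g, g')) :
    ∃ c' : cocycles₂ (Rep.ofAlgebraAutOnUnits ℚ_[q] Lt),
      ∀ g₁ g₂ : GalQ q, c'.1 (resTop Lt g₁, resTop Lt g₂) = zetaPow p ζL (a₂ (g₁, g₂)) := by
  classical
  have hζLp : ζL ^ p = 1 := zetaL_pow p q ζ hζ Lt ζL hζL
  have hσ : ∀ γ, resTop Lt (Function.surjInv (resTop_surjective Lt) γ) = γ :=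
    Function.surjInv_eq (resTop_surjective Lt)
  have hmem : ∀ g : GalQ q,
      g⁻¹ * Function.surjInv (resTop_surjective Lt) (resTop Lt g) ∈ Lt.fixingSubgroup := by
    intro g
    rw [← resTop_eq_one_iff, map_mul, hσ, map_inv, inv_mul_cancel]
  have hK : ∀ g₁ g₂ : GalQ q,
      zetaPow p ζL (a₂ (Function.surjInv (resTop_surjective Lt) (resTop Lt g₁),
        Function.surjInv (resTop_surjective Lt) (resTop Lt g₂))) =
      zetaPow p ζL (a₂ (g₁, g₂)) := by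
    intro g₁ g₂
    have h := hconst g₁ g₂ _ _ (hmem g₁) (hmem g₂)
    rw [mul_inv_cancel_left, mul_inv_cancel_left] at h
    rw [h]
  have hcoc : (fun γ : (Lt ≃ₐ[ℚ_[q]] Lt) × (Lt ≃ₐ[ℚ_[q]] Lt) =>
      zetaPow p ζL (a₂ (Function.surjInv (resTop_surjective Lt) γ.1,
        Function.surjInv (resTop_surjective Lt) γ.2))) ∈
      cocycles₂ (Rep.ofAlgebraAutOnUnits ℚ_[q] Lt) := by
    rw [mem_cocycles₂_iff]
    intro γ₁ γ₂ γ₃
    obtain ⟨g₁, rfl⟩ := resTop_surjective Lt γ₁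
    obtain ⟨g₂, rfl⟩ := resTop_surjective Lt γ₂
    obtain ⟨g₃, rfl⟩ := resTop_surjective Lt γ₃
    rw [← map_mul, ← map_mul]
    show zetaPow p ζL (a₂ (Function.surjInv (resTop_surjective Lt) (resTop Lt (g₁ * g₂)),
          Function.surjInv (resTop_surjective Lt) (resTop Lt g₃))) +
        zetaPow p ζL (a₂ (Function.surjInv (resTop_surjective Lt) (resTop Lt g₁),
          Function.surjInv (resTop_surjective Lt) (resTop Lt g₂))) =
      (Rep.ofAlgebraAutOnUnits ℚ_[q] Lt).ρ (resTop Lt g₁)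
          (zetaPow p ζL (a₂ (Function.surjInv (resTop_surjective Lt) (resTop Lt g₂),
            Function.surjInv (resTop_surjective Lt) (resTop Lt g₃)))) +
        zetaPow p ζL (a₂ (Function.surjInv (resTop_surjective Lt) (resTop Lt g₁),
          Function.surjInv (resTop_surjective Lt) (resTop Lt (g₂ * g₃))))
    rw [hK, hK, hK, hK,
      ρ_zetaPow p ζL hζLp (resTop Lt g₁) _ (resTop_zeta p q ζ hζ Lt ζL hζL g₁),
      ← zetaPow_add p ζL hζLp, ← zetaPow_add p ζL hζLp]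
    congr 1
    have h := (mem_cocycles₂_iff (A := mu (chiLoc p q)) a₂).1 ha₂ g₁ g₂ g₃
    rw [mu_ρ_apply] at h
    exact h
  exact ⟨⟨_, hcoc⟩, hK⟩

end TopCocycle

/-! ### The class at the top level -/

section TopClass

variable (q : ℕ) [Fact q.Prime]

theorem exists_qz_div (n : ℕ) (hn : n ≠ 0) (t : QZ) : ∃ t' : QZ, n • t' = t := by
  obtain ⟨r, rfl⟩ := QuotientAddGroup.mk_surjective t
  refine ⟨((r / n : ℚ) : QZ), ?_⟩
  have h : n • (r / n : ℚ) = r := by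
    rw [nsmul_eq_mul]
    field_simp
  exact (congrArg (fun s : ℚ => (s : QZ)) h)

/-- A class `u ∈ H²(Gal(L/ℚ_q), Lˣ)` with `res u = infl y`. -/
theorem exists_top_class (hInv : LeafInv q) (hInfl : LeafInvInfl q) (hRes : LeafInvRes q)
    (E : IntermediateField ℚ_[q] (PadicAlgCl q)) [FiniteDimensional ℚ_[q] E]
    (Lt : IntermediateField ℚ_[q] (PadicAlgCl q)) [FiniteDimensional ℚ_[q] Lt]
    [IsGalois ℚ_[q] Lt] (hE : E ≤ Lt) [FiniteDimensional E (extendScalars hE)]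
    [IsGalois E (extendScalars hE)]
    (L' : IntermediateField E (PadicAlgCl q)) [FiniteDimensional E L'] [IsGalois E L']
    (hL' : L' ≤ extendScalars hE) (y : H2 (Rep.ofAlgebraAutOnUnits E L')) :
    ∃ u : H2 (Rep.ofAlgebraAutOnUnits ℚ_[q] Lt),
      (resH2 hE).hom u = (inflH2 hL').hom y ∧
      Module.finrank ℚ_[q] E • H66.inv q Lt u = H66.inv q L' y := by
  obtain ⟨-, hinj, himg⟩ := hInv E (extendScalars hE)
  obtain ⟨-, -, himgT⟩ := hInv ℚ_[q] Lt
  have ht : H66.inv q (extendScalars hE) ((inflH2 hL').hom y) = H66.inv q L' y :=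
    hInfl E L' (extendScalars hE) hL' y
  have h0 : Module.finrank E (extendScalars hE) • H66.inv q L' y = 0 := by
    rw [← ht]
    exact (himg _).1 ⟨_, rfl⟩
  obtain ⟨t', ht'⟩ := exists_qz_div (Module.finrank ℚ_[q] E) Module.finrank_pos.ne'
    (H66.inv q L' y)
  have hmul : Module.finrank ℚ_[q] Lt =
      Module.finrank ℚ_[q] E * Module.finrank E (extendScalars hE) := by
    rw [← (upEquiv hE).toLinearEquiv.finrank_eq]
    exact (Module.finrank_mul_finrank ℚ_[q] E (extendScalars hE)).symm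
  obtain ⟨u, hu⟩ := (himgT t').2 (by rw [hmul, mul_nsmul, ht', h0])
  refine ⟨u, hinj ?_, by rw [hu, ht']⟩
  rw [hRes ℚ_[q] E Lt hE u, hu, ht', ht]

end TopClass

/-! ### The comparison of classes at the top level -/

section Main

variable (p : ℕ) [Fact p.Prime] (q : ℕ) [Fact q.Prime]

/-- The cochain identity on `Gal(L/E)` expressing `res [ũ] = infl [c]`. -/
theorem exists_cochain_of_res_eq_infl
    (E : IntermediateField ℚ_[q] (PadicAlgCl q))
    (Lt : IntermediateField ℚ_[q] (PadicAlgCl q)) (hE : E ≤ Lt)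
    (L' : IntermediateField E (PadicAlgCl q)) [Normal E L']
    (hL' : L' ≤ extendScalars hE)
    (c : cocycles₂ (Rep.ofAlgebraAutOnUnits E L'))
    (ũ : cocycles₂ (Rep.ofAlgebraAutOnUnits ℚ_[q] Lt))
    (hu : (resH2 hE).hom (H2π _ ũ) = (inflH2 hL').hom (H2π _ c)) :
    ∃ b : ((extendScalars hE) ≃ₐ[E] (extendScalars hE)) →
        Rep.ofAlgebraAutOnUnits E (extendScalars hE),
      ∀ δ₁ δ₂ : (extendScalars hE) ≃ₐ[E] (extendScalars hE),
        (Rep.ofAlgebraAutOnUnits E (extendScalars hE)).ρ δ₁ (b δ₂) - b (δ₁ * δ₂) + b δ₁ =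
          unitsIncl hL' (c.1 (resHom hL' δ₁, resHom hL' δ₂)) -
            unitsUp hE (ũ.1 (upHom hE δ₁, upHom hE δ₂)) := by
  have h1 := H2π_comp_map_apply (upHom hE) (upRep hE) ũ
  have h2 := H2π_comp_map_apply (resHom hL') (inflRep hL') c
  have h3 : H2π _ (mapCocycles₂ (resHom hL') (inflRep hL') c) =
      H2π _ (mapCocycles₂ (upHom hE) (upRep hE) ũ) := h2.symm.trans (hu.symm.trans h1)
  rw [H2π_eq_iff] at h3
  obtain ⟨b, hb⟩ := h3
  refine ⟨b, fun δ₁ δ₂ => ?_⟩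
  have h := congrFun hb (δ₁, δ₂)
  have h' := (d₁₂_hom_apply _ b (δ₁, δ₂)).symm.trans h
  have hr1 : (mapCocycles₂ (resHom hL') (inflRep hL') c) (δ₁, δ₂) =
      unitsIncl hL' (c.1 (resHom hL' δ₁, resHom hL' δ₂)) := rfl
  have hr2 : (mapCocycles₂ (upHom hE) (upRep hE) ũ) (δ₁, δ₂) =
      unitsUp hE (ũ.1 (upHom hE δ₁, upHom hE δ₂)) := rfl
  exact h'.trans (congrArg₂ (· - ·) hr1 hr2)

/-- `[ζ ^ (aug z)] = [E : ℚ_q] • u` in `H²(Gal(L/ℚ_q), Lˣ)` when `res u = infl [c]` and `c`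
realises the Shapiro restriction of `z`. -/
theorem H2π_eq_nsmul
    (E : IntermediateField ℚ_[q] (PadicAlgCl q)) [FiniteDimensional ℚ_[q] E]
    (hχ : ∀ s ∈ E.fixingSubgroup, chiLoc p q s = 1)
    (Lt : IntermediateField ℚ_[q] (PadicAlgCl q)) [FiniteDimensional ℚ_[q] Lt]
    [IsGalois ℚ_[q] Lt] (hE : E ≤ Lt) [FiniteDimensional E (extendScalars hE)]
    [IsGalois E (extendScalars hE)]
    (L' : IntermediateField E (PadicAlgCl q)) [FiniteDimensional E L'] [IsGalois E L']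
    (hL' : L' ≤ extendScalars hE) (ζ : PadicAlgCl q) (hζ : ζ ^ p = 1) (ζ' : L'ˣ)
    (hζ' : ((ζ' : L') : PadicAlgCl q) = ζ) (ζL : Ltˣ)
    (hζL : ((ζL : Lt) : PadicAlgCl q) = ζ)
    (z : cyc (lcComplex (Dloc q) (permRep (ZMod p) E.fixingSubgroup)) 2)
    (hconst : ∀ g g' s s' : GalQ q, s ∈ Lt.fixingSubgroup → s' ∈ Lt.fixingSubgroup →
        lcVal z ![g * s, g' * s'] = lcVal z ![g, g'])
    (c : cocycles₂ (Rep.ofAlgebraAutOnUnits E L'))
    (hR : Realises p q E L' ζ' (shapiroRes (Dloc q) E.fixingSubgroup z) c)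
    (c' : cocycles₂ (Rep.ofAlgebraAutOnUnits ℚ_[q] Lt))
    (hc' : ∀ g₁ g₂ : GalQ q, c'.1 (resTop Lt g₁, resTop Lt g₂) =
      zetaPow p ζL ((augChar (chiLoc p q) E.fixingSubgroup hχ).hom (lcVal z ![g₁, g₂])))
    (ũ : cocycles₂ (Rep.ofAlgebraAutOnUnits ℚ_[q] Lt))
    (hu : (resH2 hE).hom (H2π _ ũ) = (inflH2 hL').hom (H2π _ c)) :
    H2π (Rep.ofAlgebraAutOnUnits ℚ_[q] Lt) c' =
      Module.finrank ℚ_[q] E • H2π (Rep.ofAlgebraAutOnUnits ℚ_[q] Lt) ũ := by
  classical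
  have hζLp : ζL ^ p = 1 := zetaL_pow p q ζ hζ Lt ζL hζL
  obtain ⟨b, hb⟩ := exists_cochain_of_res_eq_infl q E Lt hE L' hL' c ũ hu
  -- finiteness
  have : Finite (GalQ q ⧸ E.fixingSubgroup) := finite_quot_fixingSubgroup q E
  let _ : Fintype (GalQ q ⧸ E.fixingSubgroup) := Fintype.ofFinite _
  have hcard : Fintype.card (GalQ q ⧸ E.fixingSubgroup) = Module.finrank ℚ_[q] E := by
    rw [← Nat.card_eq_fintype_card, card_quot_fixingSubgroup]
  have hNnormal : (Lt.fixingSubgroup).Normal := by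
    have hk : Lt.fixingSubgroup = (resTop Lt).ker := by
      ext g
      rw [MonoidHom.mem_ker, resTop_eq_one_iff]
    rw [hk]
    exact MonoidHom.normal_ker _
  have hNH : Lt.fixingSubgroup ≤ E.fixingSubgroup :=
    IntermediateField.fixingSubgroup_antitone hE
  have hρζ : ∀ (g : GalQ q) (a : ZMod p),
      (Rep.ofAlgebraAutOnUnits ℚ_[q] Lt).ρ (resTop Lt g) (zetaHom p ζL hζLp a) =
        zetaHom p ζL hζLp (((chiLoc p q g : (ZMod p)ˣ) : ZMod p) * a) := fun g a =>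
    ρ_zetaPow p ζL hζLp (resTop Lt g) _ (resTop_zeta p q ζ hζ Lt ζL hζL g) a
  -- the norm argument
  have hX : ∀ h₁ h₂ : E.fixingSubgroup,
      H93.unitsDown hE (unitsIncl hL' (c.1 (resHom hL' (resE E (extendScalars hE) h₁),
        resHom hL' (resE E (extendScalars hE) h₂)))) =
      zetaHom p ζL hζLp (permCoeff E.fixingSubgroup (lcVal z ![(h₁ : GalQ q), (h₂ : GalQ q)])
        (((1 : GalQ q) : GalQ q ⧸ E.fixingSubgroup))) := by
    intro h₁ h₂
    have hc : c.1 (resHom hL' (resE E (extendScalars hE) h₁),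
        resHom hL' (resE E (extendScalars hE) h₂)) =
        zetaPow p ζ' (shapiroRes (Dloc q) E.fixingSubgroup z (h₁, h₂)) := by
      rw [resHom_resE L' (extendScalars hE) hL', resHom_resE L' (extendScalars hE) hL']
      exact hR h₁ h₂
    rw [hc]
    exact unitsDown_unitsIncl_zetaPow p hE L' hL' ζ' ζL (hζ'.trans hζL.symm) _
  obtain ⟨β', hβ'⟩ := norm_cobound_model (E.fixingSubgroup) (Lt.fixingSubgroup) hNnormal hNH
    (resTop Lt) (resTop_surjective Lt) (resTop_eq_one_iff Lt)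
    (Rep.ofAlgebraAutOnUnits ℚ_[q] Lt) (chiLoc p q) hχ (zetaHom p ζL hζLp) hρζ
    (fun g : GalQ q × GalQ q => lcVal z ![g.1, g.2]) (cocycle_lcVal (Dloc q) _ z)
    hconst ũ.1 ũ.2
    (Rep.ofAlgebraAutOnUnits E (extendScalars hE)) (resE E (extendScalars hE)) (upHom hE)
    (resTop_coe_eq hE) (resE_eq_one hE)
    (H93.unitsDown hE).toLinearMap.toAddMonoidHom (unitsDown_ρ hE) b
    (fun δ₁ δ₂ => unitsIncl hL' (c.1 (resHom hL' δ₁, resHom hL' δ₂)))
    (fun δ₁ δ₂ => unitsUp hE (ũ.1 (upHom hE δ₁, upHom hE δ₂))) hb hX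
    (fun δ₁ δ₂ => unitsDown_unitsUp hE _) c'.1 hc'
  rw [← hcard, ← map_nsmul, H2π_eq_iff]
  refine ⟨β', funext fun γ => ?_⟩
  exact (d₁₂_hom_apply _ β' γ).trans (hβ' γ.1 γ.2).symm

set_option maxHeartbeats 4000000 in
/-- **Leaf (CMP)**: `inv_{ℚ_q} ∘ aug_* = inv_E ∘ (Shapiro restriction)`. -/
theorem localInvComp (hInv : LeafInv q) (hInfl : LeafInvInfl q) (hRes : LeafInvRes q)
    (hLVL : LocalFieldLevelsStatement q) : LocalInvCompStatement p q := by
  intro ζ hζ inv hinv E _ hχ L' _ _ ζ' hζ' x y hxy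
  obtain ⟨z, c, rfl, rfl, hR⟩ := hxy
  obtain ⟨Lt, hfin, hgal, hE, hL'mem, hconst⟩ := exists_level_field p q hLVL z E L'
  have hζ1 : ζ ^ p = 1 := hζ.pow_eq_one
  have hp0 : p ≠ 0 := (Fact.out : p.Prime).ne_zero
  -- `ζ` as a unit of `Lt`
  have hζmem : ζ ∈ Lt := hζ' ▸ hL'mem (ζ' : L')
  have hζ0 : (⟨ζ, hζmem⟩ : Lt) ≠ 0 := by
    intro h0
    have h00 : ζ = 0 := congrArg Subtype.val h0
    rw [h00, zero_pow hp0] at hζ1
    exact zero_ne_one hζ1
  have hζL : (((Units.mk0 (⟨ζ, hζmem⟩ : Lt) hζ0 : Ltˣ) : Lt) : PadicAlgCl q) = ζ := rfl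
  -- the field `Lt` over `E`
  have hfinE : FiniteDimensional E (extendScalars hE) := H93.finiteDimensional_extendScalars hE
  have hgalQ : IsGalois ℚ_[q] (extendScalars hE) := IsGalois.of_algEquiv (upEquiv hE).symm
  have hgalE : IsGalois E (extendScalars hE) :=
    IsGalois.tower_top_of_isGalois ℚ_[q] E (extendScalars hE)
  have hL' : L' ≤ extendScalars hE := fun x hx => hL'mem ⟨x, hx⟩
  -- the class at the top corresponding to `aug_* x`
  obtain ⟨c', hc'⟩ := exists_top_cocycle p q ζ hζ1 Lt (Units.mk0 (⟨ζ, hζmem⟩ : Lt) hζ0) hζL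
    (fun g : GalQ q × GalQ q => lcVal (cycMap (lcMapCoeff (Dloc q)
      (augChar (chiLoc p q) E.fixingSubgroup hχ)) 2 z) ![g.1, g.2])
    (cocycle_lcVal (Dloc q) (mu (chiLoc p q)) _)
    (fun g g' s s' hs hs' => congrArg (augChar (chiLoc p q) E.fixingSubgroup hχ).hom
      (hconst g g' s s' hs hs'))
  have hcorr := hinv Lt (Units.mk0 (⟨ζ, hζmem⟩ : Lt) hζ0) hζL
    ((cls _ 2).hom (cycMap (lcMapCoeff (Dloc q) (augChar (chiLoc p q) E.fixingSubgroup hχ)) 2 z))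
    (H2π _ c') ⟨_, c', rfl, rfl, fun g => by
      have h := hc' (g 0) (g 1)
      rw [vec2_eta] at h
      exact h⟩
  have hhlc : hlcMap (Dloc q) (augChar (chiLoc p q) E.fixingSubgroup hχ) 2
      ((cls (lcComplex (Dloc q) (permRep (ZMod p) E.fixingSubgroup)) 2).hom z) =
      (cls _ 2).hom (cycMap (lcMapCoeff (Dloc q) (augChar (chiLoc p q) E.fixingSubgroup hχ)) 2 z) :=
    homologyMap_cls _ 2 z
  -- the class `u`
  obtain ⟨u, hu1, hu2⟩ := exists_top_class q hInv hInfl hRes E Lt hE L' hL' (H2π _ c)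
  induction u using H2_induction_on with | h ũ =>
  have hmain := H2π_eq_nsmul p q E hχ Lt hE L' hL' ζ hζ1 ζ' hζ' (Units.mk0 (⟨ζ, hζmem⟩ : Lt) hζ0)
    hζL z hconst c hR c' (fun g₁ g₂ => hc' g₁ g₂) ũ hu1
  rw [hhlc, hcorr, hmain, map_nsmul, hu2]

end Main

end Fermat.Agent.S55.H3
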