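/-
S55 (Poitou–Tate), package C8, export (B4) — helper3 (second prover of CLASS-INFRES).

Presentation-free inflation–restriction in degree 2.  `φ : G →* Q` surjective, `ψ : H →* G`
injective with range the kernel of `φ`; `B` a `Q`-module with an injection `f : B → A` onto the
`ker φ`-invariants; `C` an `H`-module with a bijection `g : A → C`.  If `H¹(H, C) = 0` then
`H²(Q, B) → H²(G, A)` is injective with image the kernel of `H²(G, A) → H²(H, C)`.
Transported once from helper84's C1-c (`H84.H2InfRes_f_injective`, `H2InfRes_exact_apply`).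
-/
import Mathlib
import Fermat.Agent.S55.H84.InfRes2

set_option autoImplicit false

universe u

open CategoryTheory groupCohomology Rep

noncomputable section

namespace Fermat.Agent.S55.H3

section Pres

variable {k G Q H : Type u} [CommRing k] [Group G] [Group Q] [Group H]

/-- `H ≃* ker φ` for an injective `ψ : H →* G` with range `ker φ`. -/
def presKerEquiv (φ : G →* Q) (ψ : H →* G) (hψ : Function.Injective ψ)
    (hψφ : ψ.range = φ.ker) : H ≃* φ.ker :=
  MulEquiv.ofBijective (ψ.codRestrict φ.ker fun h => by rw [← hψφ]; exact ⟨h, rfl⟩)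
    ⟨fun a b hab => hψ (congrArg Subtype.val hab), fun s => by
      obtain ⟨h, hh⟩ : (s : G) ∈ ψ.range := by rw [hψφ]; exact s.2
      exact ⟨h, Subtype.ext hh⟩⟩

theorem presKerEquiv_coe (φ : G →* Q) (ψ : H →* G) (hψ : Function.Injective ψ)
    (hψφ : ψ.range = φ.ker) (h : H) : ((presKerEquiv φ ψ hψ hψφ h : φ.ker) : G) = ψ h := rfl

variable {A : Rep k G} {B : Rep k Q} {C : Rep k H}

/-- The restriction side: `Hⁿ(H, C) ≅ Hⁿ(ker φ, A)`. -/
def presSubIso (φ : G →* Q) (ψ : H →* G) (hψ : Function.Injective ψ)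
    (hψφ : ψ.range = φ.ker) (g : res ψ A ⟶ C) (hg : Function.Bijective g.hom) (n : ℕ) :
    groupCohomology C n ≅ groupCohomology (res φ.ker.subtype A) n :=
  mapIso (presKerEquiv φ ψ hψ hψφ)
    ((LinearEquiv.ofBijective g.hom.toLinearMap hg).symm :
      C.V ≃ₗ[k] (res φ.ker.subtype A).V)
    (fun h => by
      refine LinearMap.ext fun c => ?_
      obtain ⟨a, rfl⟩ := hg.2 c
      have h1 : (LinearEquiv.ofBijective g.hom.toLinearMap hg).symm (g.hom a) = a :=
        (LinearEquiv.ofBijective g.hom.toLinearMap hg).symm_apply_apply a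
      have h2 : C.ρ h (g.hom a) = g.hom (A.ρ (ψ h) a) := (hom_comm_apply g h a).symm
      show (LinearEquiv.ofBijective g.hom.toLinearMap hg).symm (C.ρ h (g.hom a))
        = A.ρ (ψ h) ((LinearEquiv.ofBijective g.hom.toLinearMap hg).symm (g.hom a))
      rw [h1, h2]
      exact (LinearEquiv.ofBijective g.hom.toLinearMap hg).symm_apply_apply _) n

/-- `B ≃ A^{ker φ}` for an injective `f : B → A` onto the `ker φ`-invariants. -/
def presInvEquiv (φ : G →* Q) (f : res φ B ⟶ A) (hf : Function.Injective f.hom)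
    (hfA : ∀ a : A, (∀ s ∈ φ.ker, A.ρ s a = a) → ∃ b : B, f.hom b = a) :
    B.V ≃ₗ[k] (A.quotientToInvariants φ.ker).V :=
  LinearEquiv.ofBijective
    (f.hom.toLinearMap.codRestrict (Representation.invariants (A.ρ.comp φ.ker.subtype))
      (fun b s => by
        have h1 : A.ρ (s : G) (f.hom b) = f.hom (B.ρ (φ (s : G)) b) :=
          (hom_comm_apply f (s : G) b).symm
        have h2 : φ (s : G) = 1 := s.2
        show A.ρ (s : G) (f.hom b) = f.hom b
        rw [h1, h2, map_one]
        rfl))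
    ⟨fun b b' hbb' => hf (congrArg Subtype.val hbb'), fun a => by
      obtain ⟨b, hb⟩ := hfA a.1 fun s hs => a.2 ⟨s, hs⟩
      exact ⟨b, Subtype.ext hb⟩⟩

theorem presInvEquiv_coe (φ : G →* Q) (f : res φ B ⟶ A) (hf : Function.Injective f.hom)
    (hfA : ∀ a : A, (∀ s ∈ φ.ker, A.ρ s a = a) → ∃ b : B, f.hom b = a) (b : B) :
    ((presInvEquiv φ f hf hfA b :
      Representation.invariants (A.ρ.comp φ.ker.subtype)) : A) = f.hom b := rfl

/-- The inflation side: `Hⁿ(G ⧸ ker φ, A^{ker φ}) ≅ Hⁿ(Q, B)`. -/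
def presQuotIso (φ : G →* Q) (hφ : Function.Surjective φ) (f : res φ B ⟶ A)
    (hf : Function.Injective f.hom)
    (hfA : ∀ a : A, (∀ s ∈ φ.ker, A.ρ s a = a) → ∃ b : B, f.hom b = a) (n : ℕ) :
    groupCohomology (A.quotientToInvariants φ.ker) n ≅ groupCohomology B n :=
  mapIso (QuotientGroup.quotientKerEquivOfSurjective φ hφ) (presInvEquiv φ f hf hfA).symm
    (fun g => by
      refine LinearMap.ext fun a => ?_
      obtain ⟨b, rfl⟩ := (presInvEquiv φ f hf hfA).surjective a
      induction g using QuotientGroup.induction_on with | @H g =>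
      have h1 : (A.quotientToInvariants φ.ker).ρ (g : G ⧸ φ.ker) (presInvEquiv φ f hf hfA b)
          = presInvEquiv φ f hf hfA (B.ρ (φ g) b) :=
        Subtype.ext (hom_comm_apply f g b).symm
      show (presInvEquiv φ f hf hfA).symm
          ((A.quotientToInvariants φ.ker).ρ (g : G ⧸ φ.ker) (presInvEquiv φ f hf hfA b))
        = B.ρ (φ g) ((presInvEquiv φ f hf hfA).symm (presInvEquiv φ f hf hfA b))
      rw [h1, LinearEquiv.symm_apply_apply, LinearEquiv.symm_apply_apply]) n

/-- The morphism behind the inverse of `presSubIso`. -/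
def presSubHom (φ : G →* Q) (ψ : H →* G) (hψ : Function.Injective ψ)
    (hψφ : ψ.range = φ.ker) (g : res ψ A ⟶ C) :
    res (presKerEquiv φ ψ hψ hψφ).toMonoidHom (res φ.ker.subtype A) ⟶ C :=
  ofHom ⟨g.hom.toLinearMap, fun h => LinearMap.ext fun a => hom_comm_apply g h a⟩

theorem presSubIso_inv (φ : G →* Q) (ψ : H →* G) (hψ : Function.Injective ψ)
    (hψφ : ψ.range = φ.ker) (g : res ψ A ⟶ C) (hg : Function.Bijective g.hom) (n : ℕ) :
    (presSubIso φ ψ hψ hψφ g hg n).inv
      = map (presKerEquiv φ ψ hψ hψφ).toMonoidHom (presSubHom φ ψ hψ hψφ g) n :=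
  map_congr rfl (LinearMap.ext fun _ => rfl) n

/-- The morphism behind the inverse of `presQuotIso`. -/
def presQuotHom (φ : G →* Q) (hφ : Function.Surjective φ) (f : res φ B ⟶ A)
    (hf : Function.Injective f.hom)
    (hfA : ∀ a : A, (∀ s ∈ φ.ker, A.ρ s a = a) → ∃ b : B, f.hom b = a) :
    res (QuotientGroup.quotientKerEquivOfSurjective φ hφ).toMonoidHom B ⟶
      A.quotientToInvariants φ.ker :=
  ofHom ⟨(presInvEquiv φ f hf hfA).toLinearMap, fun g => LinearMap.ext fun b => by
    induction g using QuotientGroup.induction_on with | @H g =>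
    exact Subtype.ext (hom_comm_apply f g b)⟩

theorem presQuotIso_inv (φ : G →* Q) (hφ : Function.Surjective φ) (f : res φ B ⟶ A)
    (hf : Function.Injective f.hom)
    (hfA : ∀ a : A, (∀ s ∈ φ.ker, A.ρ s a = a) → ∃ b : B, f.hom b = a) (n : ℕ) :
    (presQuotIso φ hφ f hf hfA n).inv
      = map (QuotientGroup.quotientKerEquivOfSurjective φ hφ).toMonoidHom
          (presQuotHom φ hφ f hf hfA) n :=
  map_congr rfl (LinearMap.ext fun _ => rfl) n

theorem presKer_comp (φ : G →* Q) (ψ : H →* G) (hψ : Function.Injective ψ)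
    (hψφ : ψ.range = φ.ker) :
    ψ = φ.ker.subtype.comp (presKerEquiv φ ψ hψ hψφ).toMonoidHom :=
  MonoidHom.ext fun _ => rfl

theorem presQuot_comp (φ : G →* Q) (hφ : Function.Surjective φ) :
    φ = (QuotientGroup.quotientKerEquivOfSurjective φ hφ).toMonoidHom.comp
      (QuotientGroup.mk' φ.ker) :=
  MonoidHom.ext fun _ => rfl

/-- **Inflation–restriction in degree 2, presentation-free form.** -/
theorem infRes_two_of_presentation (φ : G →* Q) (hφ : Function.Surjective φ) (ψ : H →* G)
    (hψ : Function.Injective ψ) (hψφ : ψ.range = φ.ker)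
    (f : res φ B ⟶ A) (hf : Function.Injective f.hom)
    (hfA : ∀ a : A, (∀ s ∈ φ.ker, A.ρ s a = a) → ∃ b : B, f.hom b = a)
    (g : res ψ A ⟶ C) (hg : Function.Bijective g.hom)
    (h1 : Limits.IsZero (groupCohomology C 1)) :
    Function.Injective (map φ f 2).hom ∧
      ∀ x : groupCohomology A 2, (map ψ g 2).hom x = 0 → ∃ c, (map φ f 2).hom c = x := by
  have h1' : Limits.IsZero (groupCohomology (res φ.ker.subtype A) 1) :=
    h1.of_iso (presSubIso φ ψ hψ hψφ g hg 1).symm
  -- restriction side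
  have hres : map ψ g 2 = map φ.ker.subtype (𝟙 (res φ.ker.subtype A)) 2 ≫
      (presSubIso φ ψ hψ hψφ g hg 2).inv := by
    rw [presSubIso_inv, ← groupCohomology.map_comp]
    exact map_congr (presKer_comp φ ψ hψ hψφ) (LinearMap.ext fun a => rfl) 2
  -- inflation side
  have hinf : map φ f 2 = (presQuotIso φ hφ f hf hfA 2).inv ≫ (H84.H2InfRes A φ.ker).f := by
    rw [presQuotIso_inv]
    have key := groupCohomology.map_comp
      (QuotientGroup.quotientKerEquivOfSurjective φ hφ).toMonoidHom (QuotientGroup.mk' φ.ker)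
      (presQuotHom φ hφ f hf hfA) (ofHom <| A.ρ.quotientToInvariants_lift φ.ker) 2
    refine Eq.trans ?_ key
    refine map_congr (presQuot_comp φ hφ) (LinearMap.ext fun a => ?_) 2
    rfl
  have hbij₁ : Function.Bijective (presSubIso φ ψ hψ hψφ g hg 2).inv.hom :=
    ConcreteCategory.bijective_of_isIso (presSubIso φ ψ hψ hψφ g hg 2).inv
  have hbij₂ : Function.Bijective (presQuotIso φ hφ f hf hfA 2).inv.hom :=
    ConcreteCategory.bijective_of_isIso (presQuotIso φ hφ f hf hfA 2).inv
  refine ⟨?_, fun x hx => ?_⟩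
  · rw [hinf]
    exact (H84.H2InfRes_f_injective A φ.ker h1').comp hbij₂.1
  · rw [hres] at hx
    have hx' : (H84.H2InfRes A φ.ker).g.hom x = 0 :=
      hbij₁.1 (hx.trans (map_zero _).symm)
    obtain ⟨y, hy⟩ := H84.H2InfRes_exact_apply A φ.ker h1' x hx'
    obtain ⟨c, hc⟩ := hbij₂.2 y
    refine ⟨c, ?_⟩
    rw [hinf]
    exact (congrArg (H84.H2InfRes A φ.ker).f.hom hc).trans hy

end Pres

end Fermat.Agent.S55.H3
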