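/-
S55 (Poitou–Tate), package C8, export (B4), leaf (CLASS-INFRES) — helper3 (second prover).

`H29.ClassInvStatement → H29.ClassInfResStatement`: inflation–restriction in degree 2 for the
idele class module in the Galois presentation, from the presentation-free form
`H3.infRes_two_of_presentation` (transported from helper84's C1-c) with
`φ = restrictNormalHom : Gal(L/k) → Gal(K/k)`, `ψ = subGal : Gal(L/K) → Gal(L/k)`,
`f = classInfl`, `g = classSub`.
-/
import Fermat.Agent.S55.H29.C8Cls
import Fermat.Agent.S55.H3.InfResPres
import Fermat.Agent.S55.H79.SubPres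

set_option autoImplicit false

open CategoryTheory groupCohomology Rep

noncomputable section

namespace Fermat.Agent.S55.H3

open Fermat.Agent.S55.H88 Fermat.Agent.S55.H29

section Sub

variable (k K L : Type) [Field k] [Field K] [Field L] [Algebra k K] [Algebra K L] [Algebra k L]
  [IsScalarTower k K L]

theorem subGal_injective : Function.Injective (subGal k K L) := fun _ _ h =>
  Fermat.Agent.S55.H79.galToFix_injective k K L (Subtype.ext h)

theorem subGal_range : (subGal k K L).range = fixSubgroup k K L := by
  ext σ
  constructor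
  · rintro ⟨τ, rfl⟩
    exact (galToFix k K L τ).2
  · intro hσ
    obtain ⟨τ, hτ⟩ := Fermat.Agent.S55.H79.galToFix_surjective k K L ⟨σ, hσ⟩
    exact ⟨τ, congrArg Subtype.val hτ⟩

variable [NumberField L]

/-- `C_L` in the `Gal(L/k)`-presentation and in the `Gal(L/K)`-presentation: the identity. -/
theorem classSubLin_bijective : Function.Bijective (classSubLin k K L) := by
  constructor
  · rw [injective_iff_map_eq_zero]
    intro c hc
    obtain ⟨x, rfl⟩ := Submodule.mkQ_surjective (idelePrincipal k L) c
    have h1 : (ideleClassProj K L).hom ((ideleSub k K L).hom x) = 0 := hc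
    obtain ⟨u, hu⟩ := (Submodule.Quotient.mk_eq_zero (idelePrincipal K L)).mp h1
    exact (Submodule.Quotient.mk_eq_zero (idelePrincipal k L)).mpr ⟨u, hu⟩
  · intro c
    obtain ⟨x, rfl⟩ := Submodule.mkQ_surjective (idelePrincipal K L) c
    exact ⟨(ideleClassProj k L).hom x, rfl⟩

end Sub

/-- **(CLASS-INFRES)** from (CLASS-INV), verbatim consumer shape of `H29/C8Cls.lean`. -/
theorem classInfRes_of (hInv : ClassInvStatement) : ClassInfResStatement := by
  intro k K L _ _ _ _ _ _ _ _ _ _ _ _ h1
  obtain ⟨hinj, hsurj⟩ := hInv k K L
  have hker : (subGal k K L).range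
      = (AlgEquiv.restrictNormalHom (F := k) (K₁ := L) K).ker :=
    (subGal_range k K L).trans (fixSubgroup_eq_ker k K L)
  exact infRes_two_of_presentation
    (AlgEquiv.restrictNormalHom (F := k) (K₁ := L) K) (AlgEquiv.restrictNormalHom_surjective L)
    (subGal k K L) (subGal_injective k K L) hker
    (classInfl k K L) (fun a b h => hinj h)
    (fun a ha => hsurj a fun σ hσ => ha σ (by rw [← fixSubgroup_eq_ker]; exact hσ))
    (classSub k K L) (classSubLin_bijective k K L) h1

end Fermat.Agent.S55.H3
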