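/-
Program C (S55), package C3, leaf L4 (`H66.LeafNormIndex`): abstract Herbrand-quotient tools.
Prover: helper3.  Mathlib + helper84's abstract Herbrand lemma.

* `exists_of_filtration` : successive approximation along a complete separated filtration;
* `dual_of_finite` : on a finite stable subquotient, exactness at one side gives exactness at
  the other side;
* `hIdx_eq_mul_of_valuation` : `h₀(B) = n · h₁(B)` for a group `B` with a surjective "valuation"
  `v : B → ℤ` (`v ∘ f = 0`, `v ∘ g = n · v`) whose kernel contains, with finite index, a stable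
  subgroup `V` on which `ker f = im g` and `ker g = im f`.
-/
import Mathlib
import Fermat.Agent.S55.H84.Herbrand

set_option autoImplicit false

namespace Fermat.Agent.S55.H3

open AddSubgroup Fermat.Agent.S55.H84

section Filtration

variable {B : Type*} [AddCommGroup B]

/-- Successive approximation: if `ker f = im g` holds on each graded piece of a complete
separated filtration, it holds on `V 0`. -/
theorem exists_of_filtration (f g : B →+ B) (hfg : ∀ b, f (g b) = 0)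
    (V : ℕ → AddSubgroup B)
    (hgV : ∀ i, ∀ a ∈ V i, g a ∈ V i)
    (hsep : ∀ x, (∀ i, x ∈ V i) → x = 0)
    (hcompl : ∀ s : ℕ → B, (∀ i, s i ∈ V i) →
      ∃ y ∈ V 0, ∀ i, y - ∑ j ∈ Finset.range i, s j ∈ V i)
    (hgr : ∀ i, ∀ x ∈ V i, f x ∈ V (i + 1) → ∃ y ∈ V i, x - g y ∈ V (i + 1)) :
    ∀ x ∈ V 0, f x = 0 → ∃ y ∈ V 0, g y = x := by
  intro x hx hfx
  choose! Y hY using hgr
  -- the sequence of remainders
  let X : ℕ → B := fun i => Nat.rec x (fun i xi => xi - g (Y i xi)) i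
  have hX0 : X 0 = x := rfl
  have hXs : ∀ i, X (i + 1) = X i - g (Y i (X i)) := fun i => rfl
  have hXmem : ∀ i, X i ∈ V i ∧ f (X i) = 0 := by
    intro i
    induction i with
    | zero => exact ⟨hx, hfx⟩
    | succ i ih =>
      have h1 : f (X i) ∈ V (i + 1) := by rw [ih.2]; exact zero_mem _
      refine ⟨by rw [hXs]; exact (hY i (X i) ih.1 h1).2, ?_⟩
      rw [hXs, map_sub, ih.2, hfg, sub_zero]
  have hs : ∀ i, Y i (X i) ∈ V i := fun i =>
    (hY i (X i) (hXmem i).1 (by rw [(hXmem i).2]; exact zero_mem _)).1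
  obtain ⟨y, hy0, hy⟩ := hcompl (fun i => Y i (X i)) hs
  have hXsum : ∀ i, X i = x - g (∑ j ∈ Finset.range i, Y j (X j)) := by
    intro i
    induction i with
    | zero => simp [hX0]
    | succ i ih =>
      rw [hXs, Finset.sum_range_succ, map_add, ih]
      abel
  refine ⟨y, hy0, ?_⟩
  have hzero : x - g y = 0 := by
    apply hsep
    intro i
    have h1 : x - g y = X i - g (y - ∑ j ∈ Finset.range i, Y j (X j)) := by
      rw [hXsum i, map_sub]
      abel
    rw [h1]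
    exact sub_mem (hXmem i).1 (hgV i _ (hy i))
  exact (sub_eq_zero.1 hzero).symm

end Filtration

section Dual

variable {B : Type*} [AddCommGroup B]

/-- On a finite stable subquotient `V / W`, exactness `ker f = im g` implies exactness
`ker g = im f`. -/
theorem dual_of_finite (f g : B →+ B) (hfg : ∀ b, f (g b) = 0) (hgf : ∀ b, g (f b) = 0)
    (V W : AddSubgroup B)
    (hfV : ∀ a ∈ V, f a ∈ V) (hgV : ∀ a ∈ V, g a ∈ V)
    (hfW : ∀ a ∈ W, f a ∈ W) (hgW : ∀ a ∈ W, g a ∈ W)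
    {ι : Type*} (φ : B → ι) (hφ : (Set.range φ).Finite)
    (hφW : ∀ x ∈ V, ∀ y ∈ V, φ x = φ y → x - y ∈ W)
    (ha : ∀ x ∈ V, f x ∈ W → ∃ y ∈ V, x - g y ∈ W) :
    ∀ x ∈ V, g x ∈ W → ∃ y ∈ V, x - f y ∈ W := by
  classical
  let fV : V →+ V := (f.comp V.subtype).codRestrict V (fun x => hfV x x.2)
  let gV : V →+ V := (g.comp V.subtype).codRestrict V (fun x => hgV x x.2)
  let N : AddSubgroup V := W.addSubgroupOf V
  have hfN : N ≤ N.comap fV := by
    intro x hx
    exact hfW _ hx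
  have hgN : N ≤ N.comap gV := by
    intro x hx
    exact hgW _ hx
  let fQ : V ⧸ N →+ V ⧸ N := QuotientAddGroup.map N N fV hfN
  let gQ : V ⧸ N →+ V ⧸ N := QuotientAddGroup.map N N gV hgN
  have hfgQ : ∀ b, fQ (gQ b) = 0 := by
    intro b
    obtain ⟨b, rfl⟩ := QuotientAddGroup.mk_surjective b
    show ((fV (gV b) : V) : V ⧸ N) = 0
    have : fV (gV b) = 0 := Subtype.ext (hfg _)
    rw [this]
    rfl
  have hgfQ : ∀ b, gQ (fQ b) = 0 := by
    intro b
    obtain ⟨b, rfl⟩ := QuotientAddGroup.mk_surjective b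
    show ((gV (fV b) : V) : V ⧸ N) = 0
    have : gV (fV b) = 0 := Subtype.ext (hgf _)
    rw [this]
    rfl
  -- the quotient is finite
  have hfin : Finite (V ⧸ N) := by
    have : Finite (Set.range φ) := hφ.to_subtype
    let ψ : V ⧸ N → Set.range φ := fun c => ⟨φ ((Quotient.out c : V) : B), ⟨_, rfl⟩⟩
    refine Finite.of_injective ψ ?_
    intro c c' hcc
    have h1 : φ ((Quotient.out c : V) : B) = φ ((Quotient.out c' : V) : B) :=
      congrArg Subtype.val hcc
    have h2 := hφW _ (Quotient.out c : V).2 _ (Quotient.out c' : V).2 h1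
    have h3 : ((Quotient.out c : V) : V ⧸ N) = ((Quotient.out c' : V) : V ⧸ N) := by
      rw [QuotientAddGroup.eq_iff_sub_mem]
      exact h2
    have e1 : ((Quotient.out c : V) : V ⧸ N) = c := Quotient.out_eq c
    have e2 : ((Quotient.out c' : V) : V ⧸ N) = c' := Quotient.out_eq c'
    rw [← e1, ← e2]
    exact h3
  obtain ⟨heq, -⟩ := hIdx_eq_of_finite (f := fQ) (g := gQ) hfgQ hgfQ
  have h0 : hIdx fQ gQ = 1 := by
    unfold hIdx
    rw [relIndex_eq_one]
    intro c hc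
    obtain ⟨c, rfl⟩ := QuotientAddGroup.mk_surjective c
    have hc' : ((fV c : V) : V ⧸ N) = 0 := hc
    rw [QuotientAddGroup.eq_zero_iff] at hc'
    obtain ⟨y, hyV, hy⟩ := ha c c.2 hc'
    refine ⟨((⟨y, hyV⟩ : V) : V ⧸ N), ?_⟩
    show ((gV ⟨y, hyV⟩ : V) : V ⧸ N) = (c : V ⧸ N)
    rw [eq_comm, QuotientAddGroup.eq_iff_sub_mem]
    exact hy
  rw [h0] at heq
  have h1 : fQ.range.relIndex gQ.ker = 1 := heq.symm
  rw [relIndex_eq_one] at h1
  intro x hx hgx
  have hmem : (((⟨x, hx⟩ : V) : V ⧸ N)) ∈ gQ.ker := by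
    show ((gV ⟨x, hx⟩ : V) : V ⧸ N) = 0
    rw [QuotientAddGroup.eq_zero_iff]
    exact hgx
  obtain ⟨c, hc⟩ := h1 hmem
  obtain ⟨c, rfl⟩ := QuotientAddGroup.mk_surjective c
  refine ⟨c, c.2, ?_⟩
  have hc' : ((fV c : V) : V ⧸ N) = ((⟨x, hx⟩ : V) : V ⧸ N) := hc
  rw [eq_comm, QuotientAddGroup.eq_iff_sub_mem] at hc'
  exact hc'

end Dual

section Valuation

/-- `[ker 0 : im n] = n` on `ℤ`. -/
theorem hIdx_zero_nsmul (n : ℕ) :
    hIdx (0 : ℤ →+ ℤ) (n • AddMonoidHom.id ℤ) = n := by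
  unfold hIdx
  have h1 : (0 : ℤ →+ ℤ).ker = ⊤ := by
    ext x; simp
  have h2 : (n • AddMonoidHom.id ℤ).range = AddSubgroup.zmultiples (n : ℤ) := by
    ext x
    simp only [AddMonoidHom.mem_range, AddMonoidHom.smul_apply, AddMonoidHom.id_apply,
      Int.mem_zmultiples_iff]
    constructor
    · rintro ⟨y, rfl⟩
      exact ⟨y, by simp [mul_comm]⟩
    · rintro ⟨y, rfl⟩
      exact ⟨y, by simp [mul_comm]⟩
  rw [h1, relIndex_top_right, h2, Int.index_zmultiples]
  simp

/-- `[ker n : im 0] = 1` on `ℤ`, `n ≠ 0`. -/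
theorem hIdx_nsmul_zero (n : ℕ) (hn : n ≠ 0) :
    hIdx (n • AddMonoidHom.id ℤ) (0 : ℤ →+ ℤ) = 1 := by
  unfold hIdx
  rw [relIndex_eq_one]
  intro x hx
  have hx' : n • x = 0 := hx
  have : x = 0 := by
    rcases smul_eq_zero.1 hx' with h | h
    · exact absurd h hn
    · exact h
  rw [this]
  exact zero_mem _

variable {B : Type*} [AddCommGroup B]

/-- **Herbrand quotient via a valuation.**  `h₀(B) = n · h₁(B)`. -/
theorem hIdx_eq_mul_of_valuation (f g : B →+ B) (hfg : ∀ b, f (g b) = 0)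
    (hgf : ∀ b, g (f b) = 0)
    (v : B →+ ℤ) (hv : Function.Surjective v) (n : ℕ) (hn : n ≠ 0)
    (hvf : ∀ b, v (f b) = 0) (hvg : ∀ b, v (g b) = n • v b)
    (V : AddSubgroup B) (hVv : V ≤ v.ker)
    (hfV : ∀ a ∈ V, f a ∈ V) (hgV : ∀ a ∈ V, g a ∈ V)
    {ι : Type*} (φ : B → ι) (hφ : (Set.range φ).Finite)
    (hφV : ∀ x y, v x = 0 → v y = 0 → φ x = φ y → x - y ∈ V)
    (h0 : ∀ x ∈ V, f x = 0 → ∃ y ∈ V, g y = x)
    (h1 : ∀ x ∈ V, g x = 0 → ∃ y ∈ V, f y = x) :
    hIdx f g = n * hIdx g f := by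
  classical
  -- the indices of `V` are `1`
  have hS0 : hIdxSub V f g = 1 := by
    unfold hIdxSub
    rw [relIndex_eq_one]
    rintro x ⟨hx1, hx2⟩
    obtain ⟨y, hy, rfl⟩ := h0 x hx2 hx1
    exact ⟨y, hy, rfl⟩
  have hS1 : hIdxSub V g f = 1 := by
    unfold hIdxSub
    rw [relIndex_eq_one]
    rintro x ⟨hx1, hx2⟩
    obtain ⟨y, hy, rfl⟩ := h1 x hx2 hx1
    exact ⟨y, hy, rfl⟩
  have hI := hIdx_mul_internal V hfg hgf hfV hgV
  rw [hS0, hS1, one_mul, one_mul] at hI
  -- the quotient `C = B / V`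
  have hfV' : V ≤ V.comap f := fun x hx => hfV x hx
  have hgV' : V ≤ V.comap g := fun x hx => hgV x hx
  let fC : B ⧸ V →+ B ⧸ V := QuotientAddGroup.map V V f hfV'
  let gC : B ⧸ V →+ B ⧸ V := QuotientAddGroup.map V V g hgV'
  have hQ0 : hIdx fC gC = hIdxQuot V f g := by
    have := hIdx_eq_hIdxQuot (π := QuotientAddGroup.mk' V) (fB := f) (gB := g) (fC := fC)
      (gC := gC) (QuotientAddGroup.mk'_surjective V) (fun b => rfl) (fun b => rfl)
    rwa [QuotientAddGroup.ker_mk'] at this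
  have hQ1 : hIdx gC fC = hIdxQuot V g f := by
    have := hIdx_eq_hIdxQuot (π := QuotientAddGroup.mk' V) (fB := g) (gB := f) (fC := gC)
      (gC := fC) (QuotientAddGroup.mk'_surjective V) (fun b => rfl) (fun b => rfl)
    rwa [QuotientAddGroup.ker_mk'] at this
  rw [← hQ0, ← hQ1] at hI
  have hfgC : ∀ b, fC (gC b) = 0 := by
    intro b
    obtain ⟨b, rfl⟩ := QuotientAddGroup.mk_surjective b
    show ((f (g b) : B) : B ⧸ V) = 0
    rw [hfg]; rfl
  have hgfC : ∀ b, gC (fC b) = 0 := by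
    intro b
    obtain ⟨b, rfl⟩ := QuotientAddGroup.mk_surjective b
    show ((g (f b) : B) : B ⧸ V) = 0
    rw [hgf]; rfl
  -- the valuation on `C`
  let vC : B ⧸ V →+ ℤ := QuotientAddGroup.lift V v hVv
  have hvC : Function.Surjective vC := by
    intro m
    obtain ⟨b, rfl⟩ := hv m
    exact ⟨(b : B ⧸ V), rfl⟩
  have hvfC : ∀ c, vC (fC c) = (0 : ℤ →+ ℤ) (vC c) := by
    intro c
    obtain ⟨b, rfl⟩ := QuotientAddGroup.mk_surjective c
    exact hvf b
  have hvgC : ∀ c, vC (gC c) = (n • AddMonoidHom.id ℤ) (vC c) := by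
    intro c
    obtain ⟨b, rfl⟩ := QuotientAddGroup.mk_surjective c
    exact hvg b
  -- the kernel `A` of `vC`
  let fA : vC.ker →+ vC.ker := (fC.comp vC.ker.subtype).codRestrict vC.ker (fun a => by
    show vC (fC a) = 0
    rw [hvfC]; rfl)
  let gA : vC.ker →+ vC.ker := (gC.comp vC.ker.subtype).codRestrict vC.ker (fun a => by
    show vC (gC a) = 0
    rw [hvgC]
    have : vC (a : B ⧸ V) = 0 := a.2
    rw [this]; simp)
  have hfin : Finite vC.ker := by
    have : Finite (Set.range φ) := hφ.to_subtype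
    let ψ : vC.ker → Set.range φ := fun c => ⟨φ (Quotient.out (c : B ⧸ V)), ⟨_, rfl⟩⟩
    refine Finite.of_injective ψ ?_
    intro c c' hcc
    have h1 : φ (Quotient.out (c : B ⧸ V)) = φ (Quotient.out (c' : B ⧸ V)) :=
      congrArg Subtype.val hcc
    have e1 : ((Quotient.out (c : B ⧸ V) : B) : B ⧸ V) = c := Quotient.out_eq _
    have e2 : ((Quotient.out (c' : B ⧸ V) : B) : B ⧸ V) = c' := Quotient.out_eq _
    have v1 : v (Quotient.out (c : B ⧸ V)) = 0 := by
      have : vC ((Quotient.out (c : B ⧸ V) : B) : B ⧸ V) = 0 := by rw [e1]; exact c.2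
      exact this
    have v2 : v (Quotient.out (c' : B ⧸ V)) = 0 := by
      have : vC ((Quotient.out (c' : B ⧸ V) : B) : B ⧸ V) = 0 := by rw [e2]; exact c'.2
      exact this
    have h2 := hφV _ _ v1 v2 h1
    apply Subtype.ext
    rw [← e1, ← e2, QuotientAddGroup.eq_iff_sub_mem]
    exact h2
  have hfgA : ∀ a, fA (gA a) = 0 := fun a => Subtype.ext (hfgC _)
  have hgfA : ∀ a, gA (fA a) = 0 := fun a => Subtype.ext (hgfC _)
  obtain ⟨hAeq, hAne⟩ := hIdx_eq_of_finite (f := fA) (g := gA) hfgA hgfA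
  have hex : vC.ker.subtype.range = vC.ker := range_subtype _
  have hmul := hIdx_mul_of_exact (i := vC.ker.subtype) (π := vC) (fA := fA) (gA := gA)
    (fB := fC) (gB := gC) (fC := (0 : ℤ →+ ℤ)) (gC := n • AddMonoidHom.id ℤ)
    Subtype.val_injective hvC hex (fun a => rfl) (fun a => rfl) hvfC hvgC hfgC hgfC
  have hne := hIdx_ne_zero_of_exact (i := vC.ker.subtype) (π := vC) (fA := fA) (gA := gA)
    (fB := fC) (gB := gC) (fC := (0 : ℤ →+ ℤ)) (gC := n • AddMonoidHom.id ℤ)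
    Subtype.val_injective hvC hex (fun a => rfl) (fun a => rfl) hvfC hvgC hfgC hgfC
    hAne (hAeq ▸ hAne) (by rw [hIdx_zero_nsmul]; exact hn)
    (by rw [hIdx_nsmul_zero n hn]; exact one_ne_zero)
  rw [hIdx_zero_nsmul, hIdx_nsmul_zero n hn, ← hAeq, mul_one] at hmul
  -- `hmul : hIdx fA gA * n * hIdx gC fC = hIdx fA gA * hIdx fC gC`
  have hC : n * hIdx gC fC = hIdx fC gC := by
    have : hIdx fA gA * (n * hIdx gC fC) = hIdx fA gA * hIdx fC gC := by
      rw [← mul_assoc]; exact hmul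
    exact Nat.eq_of_mul_eq_mul_left (Nat.pos_of_ne_zero hAne) this
  -- `hI : hIdx fC gC * hIdx g f = hIdx gC fC * hIdx f g`
  rw [← hC] at hI
  have : hIdx gC fC * hIdx f g = hIdx gC fC * (n * hIdx g f) := by
    rw [← hI]; ring
  exact Nat.eq_of_mul_eq_mul_left (Nat.pos_of_ne_zero hne.2) this

end Valuation

end Fermat.Agent.S55.H3
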