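/-
Program C (S55), package C3, leaf L4 (`H66.LeafNormIndex`): the abstract statement.
Prover: helper3.  Mathlib only.

`AbsNormIndex` is the norm-index theorem `(Kˣ : N Lˣ) = [L : K]` for a finite cyclic extension
`L/K` equipped with a "complete discretely valued" package, given purely algebraically:
a Galois-stable subring `O` of `L` (the integers), an element `π` of `K` (any element of
positive valuation), and an order function `v : Lˣ → ℤ`.

* `NormIndexAbs.lean` (helper3) proves `absNormIndex : AbsNormIndex`;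
* the model instantiation proves `AbsNormIndex → H66.LeafNormIndex q`.
-/
import Mathlib

set_option autoImplicit false

namespace Fermat.Agent.S55.H3

/-- The abstract norm-index theorem for cyclic extensions (statement). -/
def AbsNormIndex : Prop :=
  ∀ (K L : Type) [Field K] [Field L] [Algebra K L] [FiniteDimensional K L] [IsGalois K L]
    (σ : L ≃ₐ[K] L) (O : Subring L) (π : K) (v : Lˣ → ℤ),
    -- `σ` generates the Galois group
    (∀ τ : L ≃ₐ[K] L, τ ∈ Subgroup.zpowers σ) →
    -- `O` is Galois stable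
    (∀ (τ : L ≃ₐ[K] L) (x : L), x ∈ O → τ x ∈ O) →
    -- `π ≠ 0`, `π ∈ O`
    π ≠ 0 → algebraMap K L π ∈ O →
    -- (ABS) every element has bounded denominator
    (∀ x : L, ∃ e : ℕ, algebraMap K L π ^ e * x ∈ O) →
    -- (UNIT) `1 + π z` is a unit of `O`
    (∀ z ∈ O, 1 + algebraMap K L π * z ≠ 0 ∧ (1 + algebraMap K L π * z)⁻¹ ∈ O) →
    -- (SEP) `⋂ πᵉ O = 0`
    (∀ x : L, (∀ e : ℕ, ∃ z ∈ O, x = algebraMap K L π ^ e * z) → x = 0) →
    -- (FIN) `O / πᵉ O` is finite
    (∀ e : ℕ, ∃ S : Set L, S.Finite ∧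
      ∀ x ∈ O, ∃ s ∈ S, ∃ z ∈ O, x - s = algebraMap K L π ^ e * z) →
    -- (COMPL) `O` is `π`-adically complete
    (∀ t : ℕ → L, (∀ i, t i ∈ O) →
      (∀ i, ∃ z ∈ O, t (i + 1) - t i = algebraMap K L π ^ i * z) →
      ∃ y ∈ O, ∀ i, ∃ z ∈ O, y - t i = algebraMap K L π ^ i * z) →
    -- (VAL) the order function: a surjective homomorphism with kernel `Oˣ`, Galois invariant
    (∀ a b : Lˣ, v (a * b) = v a + v b) → Function.Surjective v →
    (∀ u : Lˣ, v u = 0 ↔ (u : L) ∈ O ∧ ((u⁻¹ : Lˣ) : L) ∈ O) →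
    (∀ (τ : L ≃ₐ[K] L) (u w : Lˣ), (w : L) = τ (u : L) → v w = v u) →
    (Units.map (Algebra.norm K : L →* K)).range.index = Module.finrank K L

end Fermat.Agent.S55.H3
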